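import Fermat.Agent.S55.B.Setup
import Fermat.Agent.S55.L.Kummer

/-!
# S55/B-Kum : the Kummer cochain `kum p β g` (`Arith/Defs.lean`: `g β / β = ζ ^ (kum p β g)`, `iota_kum`) for
an ARBITRARY subgroup `H` of `GQ` (levels `Lall.sub H`).

Formal consequences of `iota_kum`, `iota_injective`, `iota_compat`, `Gm_apply` and of Hilbert 90
(`h90_Gm`, `Arith/H90.lean`, proved) / the abstract Kummer theory `L/Kummer.lean` applied to
`gmDatum p H` (`Arith/Kummer.lean`): e.g. `KummerDatum.exists_kummer_cocycle`, `ιc_mem_Z1`.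
-/

set_option autoImplicit false

noncomputable section

namespace Fermat.Agent.S55.B

open Places ExtCitation G

variable (p : ℕ) [Fact p.Prime] {H : Subgroup GQ}

theorem Kum_Gm_eq_iff (β : Qbarˣ) (g : GQ) :
    Gm g (Additive.ofMul β) = Additive.ofMul β ↔ g (β : Qbar) = β := by
  constructor
  · intro h
    have := congrArg (fun y : Additive Qbarˣ => ((y.toMul : Qbarˣ) : Qbar)) h
    exact this
  · intro h
    apply Additive.toMul.injective
    apply Units.ext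
    exact h

theorem kum_eq_zero_iff {β : Qbarˣ} {g : GQ} (h : g ((β : Qbar) ^ p) = (β : Qbar) ^ p) :
    kum p β g = 0 ↔ g (β : Qbar) = β := by
  rw [← Kum_Gm_eq_iff, ← sub_eq_zero (a := Gm g (Additive.ofMul β)), ← iota_kum p β g h,
    map_eq_zero_iff _ (iota_injective p)]

theorem Kum_fix_mul {β β' : Qbarˣ} {g : GQ} (h : g ((β : Qbar) ^ p) = (β : Qbar) ^ p)
    (h' : g ((β' : Qbar) ^ p) = (β' : Qbar) ^ p) :
    g (((β * β' : Qbarˣ) : Qbar) ^ p) = ((β * β' : Qbarˣ) : Qbar) ^ p := by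
  rw [Units.val_mul, mul_pow, map_mul, h, h']

theorem Kum_fix_inv {β : Qbarˣ} {g : GQ} (h : g ((β : Qbar) ^ p) = (β : Qbar) ^ p) :
    g (((β⁻¹ : Qbarˣ) : Qbar) ^ p) = ((β⁻¹ : Qbarˣ) : Qbar) ^ p := by
  rw [Units.val_inv_eq_inv_val, inv_pow, map_inv₀, h]

theorem Kum_fix_pow {β : Qbarˣ} {g : GQ} (h : g ((β : Qbar) ^ p) = (β : Qbar) ^ p) (n : ℕ) :
    g (((β ^ n : Qbarˣ) : Qbar) ^ p) = ((β ^ n : Qbarˣ) : Qbar) ^ p := by
  rw [Units.val_pow_eq_pow_val, ← pow_mul, mul_comm, pow_mul, map_pow, h]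

theorem Kum_fix_zpow {β : Qbarˣ} {g : GQ} (h : g ((β : Qbar) ^ p) = (β : Qbar) ^ p) (n : ℤ) :
    g (((β ^ n : Qbarˣ) : Qbar) ^ p) = ((β ^ n : Qbarˣ) : Qbar) ^ p := by
  obtain ⟨n, rfl | rfl⟩ := n.eq_nat_or_neg
  · rw [zpow_natCast]
    exact Kum_fix_pow p h n
  · rw [zpow_neg, zpow_natCast]
    exact Kum_fix_inv p (Kum_fix_pow p h n)

theorem kum_mul {β β' : Qbarˣ} {g : GQ} (h : g ((β : Qbar) ^ p) = (β : Qbar) ^ p)
    (h' : g ((β' : Qbar) ^ p) = (β' : Qbar) ^ p) :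
    kum p (β * β') g = kum p β g + kum p β' g := by
  apply iota_injective p
  rw [map_add, iota_kum p _ g (Kum_fix_mul p h h'), iota_kum p _ g h, iota_kum p _ g h', ofMul_mul,
    map_add]
  abel

theorem kum_inv {β : Qbarˣ} {g : GQ} (h : g ((β : Qbar) ^ p) = (β : Qbar) ^ p) :
    kum p β⁻¹ g = - kum p β g := by
  apply iota_injective p
  rw [map_neg, iota_kum p _ g (Kum_fix_inv p h), iota_kum p _ g h, ofMul_inv, map_neg]
  abel

theorem kum_div {β β' : Qbarˣ} {g : GQ} (h : g ((β : Qbar) ^ p) = (β : Qbar) ^ p)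
    (h' : g ((β' : Qbar) ^ p) = (β' : Qbar) ^ p) :
    kum p (β / β') g = kum p β g - kum p β' g := by
  rw [div_eq_mul_inv, kum_mul p h (Kum_fix_inv p h'), kum_inv p h', sub_eq_add_neg]

theorem kum_pow {β : Qbarˣ} {g : GQ} (h : g ((β : Qbar) ^ p) = (β : Qbar) ^ p) (n : ℕ) :
    kum p (β ^ n) g = n • kum p β g := by
  apply iota_injective p
  rw [map_nsmul, iota_kum p _ g (Kum_fix_pow p h n), iota_kum p _ g h, ofMul_pow, map_nsmul,
    nsmul_sub]

theorem kum_zpow {β : Qbarˣ} {g : GQ} (h : g ((β : Qbar) ^ p) = (β : Qbar) ^ p) (n : ℤ) :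
    kum p (β ^ n) g = n • kum p β g := by
  apply iota_injective p
  rw [map_zsmul, iota_kum p _ g (Kum_fix_zpow p h n), iota_kum p _ g h, ofMul_zpow, map_zsmul,
    zsmul_sub]

/-- two `p`-th roots of the same element have the same Kummer cochain on `ker ω`. -/
theorem kum_eq_of_pow_eq {β β' : Qbarˣ} (hββ' : β ^ p = β' ^ p) {g : GQ}
    (hg : g ∈ (cycloChar p).ker) (h : g ((β : Qbar) ^ p) = (β : Qbar) ^ p) :
    kum p β g = kum p β' g := by
  have h' : g ((β' : Qbar) ^ p) = (β' : Qbar) ^ p := by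
    rw [← Units.val_pow_eq_pow_val, ← hββ', Units.val_pow_eq_pow_val, h]
  have ht : (β / β') ^ p = 1 := by
    rw [div_pow, hββ', div_self']
  have h1 : g ((β / β' : Qbarˣ) : Qbar) = ((β / β' : Qbarˣ) : Qbar) := by
    have : Fact (1 < p) := ⟨(Fact.out : p.Prime).one_lt⟩
    have hg1 : cycloChar p g = 1 := hg
    rw [cycloChar_spec p g _ ht, hg1, Units.val_one, ZMod.val_one, pow_one]
  have h2 : g (((β / β' : Qbarˣ) : Qbar) ^ p) = ((β / β' : Qbarˣ) : Qbar) ^ p := by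
    rw [map_pow, h1]
  have h3 := (kum_eq_zero_iff p h2).mpr h1
  rw [kum_div p h h', sub_eq_zero] at h3
  exact h3

/-- `kum β (g h) = ω(g) kum β h + kum β g` -/
theorem kum_mul_apply {β : Qbarˣ} {g h : GQ} (hg : g ((β : Qbar) ^ p) = (β : Qbar) ^ p)
    (hh : h ((β : Qbar) ^ p) = (β : Qbar) ^ p) :
    kum p β (g * h) = mu p g (kum p β h) + kum p β g := by
  have hgh : (g * h) ((β : Qbar) ^ p) = (β : Qbar) ^ p := by
    rw [AlgEquiv.mul_apply, hh, hg]
  apply iota_injective p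
  rw [map_add, iota_compat, iota_kum p _ _ hgh, iota_kum p _ _ hg, iota_kum p _ _ hh, map_sub,
    map_mul, Module.End.mul_apply]
  abel

theorem Kum_fix_of_mem {β : Qbarˣ} (hβ : (β : Qbar) ^ p ∈ Places.Fix H) (g : H) :
    (g : GQ) ((β : Qbar) ^ p) = (β : Qbar) ^ p :=
  (IntermediateField.mem_fixedField_iff _ _).1 hβ g g.2

theorem kum_mem_Z1 {β : Qbarˣ} (hβ : (β : Qbar) ^ p ∈ Places.Fix H) :
    (fun g : H => kum p β g) ∈ Z1 (Lall.sub H) (rsub (mu p) H) := by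
  have hb : p • Additive.ofMul β ∈ H0 (rsub Gm H) := by
    rw [mem_H0_Gm_iff, toMul_nsmul, toMul_ofMul, Units.val_pow_eq_pow_val]
    exact hβ
  obtain ⟨y, hy⟩ := (gmDatum p H).exists_kummer_cocycle ⟨_, hb⟩ (Additive.ofMul β) rfl
  have : (fun g : H => kum p β g) = (y : H → ZMod p) := by
    funext g
    apply iota_injective p
    rw [iota_kum p _ _ (Kum_fix_of_mem p hβ g)]
    exact (hy g).symm
  rw [this]
  exact y.2

/-- F1 (surjectivity of `κ`), cochain form: EVERY level 1-cocycle with values in `μ_p` is a Kummer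
cochain.  [`ι ∘ z` is a level cocycle of `Gm`; `h90_Gm`: `ι (z g) = g β / β`; so `(g β/β)^p = 1`.] -/
theorem exists_kum_eq {z : H → ZMod p} (hz : z ∈ Z1 (Lall.sub H) (rsub (mu p) H)) :
    ∃ β : Qbarˣ, (β : Qbar) ^ p ∈ Places.Fix H ∧ ∀ g : H, z g = kum p β g := by
  obtain ⟨x, hx⟩ := mem_B1.mp (h90_Gm H ((gmDatum p H).ιc_mem_Z1 hz))
  have hx' : ∀ g : H, iota p (z g) = Gm (g : GQ) x - x := hx
  have hinv : p • x ∈ H0 (rsub Gm H) := by
    intro g
    change Gm (g : GQ) (p • x) = p • x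
    rw [map_nsmul, ← sub_eq_zero, ← nsmul_sub, ← hx' g, ← map_nsmul]
    simp
  have hβ : ((x.toMul : Qbarˣ) : Qbar) ^ p ∈ Places.Fix H := by
    rw [mem_H0_Gm_iff, toMul_nsmul, Units.val_pow_eq_pow_val] at hinv
    exact hinv
  refine ⟨x.toMul, hβ, fun g => ?_⟩
  apply iota_injective p
  rw [iota_kum p _ _ (Kum_fix_of_mem p hβ g), hx' g]
  rfl

theorem exists_root (x : Qbarˣ) : ∃ β : Qbarˣ, β ^ p = x := by
  obtain ⟨b, hb⟩ := Gm_div p (Additive.ofMul x)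
  refine ⟨b.toMul, ?_⟩
  rw [← toMul_nsmul, hb, toMul_ofMul]

end Fermat.Agent.S55.B

end
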