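import Fermat.Agent.S55.Arith.CycFlat
import Fermat.Agent.S55.Coh.SylowDev
import Fermat.Agent.S55.G.BridgeHNT
import Fermat.Agent.S55.Z.Cyclo

/-!
# S55 (G8): the Hasse principle for `H²(U, μ_p)`

`U` open in `GQ`, `x ∈ H²(U, L_all; μ_p)` whose restrictions to all `g D_l g⁻¹ ⊓ U` vanish is zero.
-/

set_option autoImplicit false

noncomputable section

namespace Fermat.Agent.S55

open Places ExtCitation

variable (p : ℕ) [Fact p.Prime]

/-- `x ∈ H²(W; μ_p)` is locally trivial. -/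
def LocTriv (W : Subgroup GQ) (x : H2 (Lall.sub W) (rsub (mu p) W)) : Prop :=
  ∀ (l : Nat.Primes) (g : GQ),
    (Pair.resLE Lall (mu p) (inf_le_right : G.Dg l g ⊓ W ≤ W)).map2 x = 0

variable {p}

theorem LocTriv.resLE {W' W : Subgroup GQ} (h : W' ≤ W) {x : H2 (Lall.sub W) (rsub (mu p) W)}
    (hx : LocTriv p W x) : LocTriv p W' ((Pair.resLE Lall (mu p) h).map2 x) := by
  intro l g
  rw [Pair.resLE_resLE_map2]
  have h1 : G.Dg l g ⊓ W' ≤ G.Dg l g ⊓ W := inf_le_inf_left _ h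
  rw [← Pair.resLE_resLE_map2 Lall (mu p) h1 inf_le_right, hx l g, map_zero]

/-- the arithmetic core: F1 + F2 (global and local) + (HNT). -/
theorem hasse_step (hL : G.LocalNormIndexFix p) (hp2 : p ≠ 2) (V V1 : Subgroup GQ) (h : V1 ≤ V)
    (hV : Lall.IsOpen V) (hV1 : Lall.IsOpen V1) (hω : V ≤ (cycloChar p).ker)
    (hn : (V1.subgroupOf V).Normal) (hi : (V1.subgroupOf V).index = p)
    (x : H2 (Lall.sub V) (rsub (mu p) V)) (hx : LocTriv p V x)
    (hres : (Pair.resLE Lall (mu p) h).map2 x = 0) : x = 0 := by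
  classical
  have hV1o : (Lall.sub V).IsOpen (V1.subgroupOf V) :=
    (Levels.isOpen_subgroupOf_iff Lall h hV).2 hV1
  obtain ⟨χ, hχ, hs, hker⟩ :=
    exists_char_of_index_prime (L := Lall.sub V) (V1.subgroupOf V) hV1o hi
  -- `ι2 x` dies on `ker χ`
  have h1 : (Pair.res (Lall.sub V) (rsub Gm V) χ.ker).map2 ((gmDatum p V).ι2 x) = 0 := by
    rw [hker, ← Pair.resLE_map2_eq_zero_iff Lall Gm h, ← ι2_resLE, hres, map_zero]
  obtain ⟨b, hb⟩ := exists_cycCl_of_res_eq_zero (Lall.sub V) (rsub Gm V) χ hχ hs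
    (h90_Gm_sub V _) ((gmDatum p V).ι2 x) h1
  -- `b` is a local norm
  have hloc : ∀ (l : Nat.Primes) (g : GQ), ¬ (G.Dg l g ⊓ V ≤ V1) →
      G.IsNormFrom p (G.Dg l g ⊓ V) (G.Dg l g ⊓ V1) (ofH0 b) := by
    intro l g hns
    have hP : G.Dg l g ⊓ V ≤ V := inf_le_right
    have hχP := isLevel₁_comp_inclusion hP χ hχ
    have hmem : ∀ y : ↥(G.Dg l g ⊓ V), y ∈ (χ.comp (Subgroup.inclusion hP)).ker ↔ (y : GQ) ∈ V1 := by
      intro y
      rw [MonoidHom.mem_ker, MonoidHom.comp_apply, ← MonoidHom.mem_ker, hker,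
        Subgroup.mem_subgroupOf]
      rfl
    have hsP : Function.Surjective (χ.comp (Subgroup.inclusion hP)) := by
      refine surjective_of_ne_one _ (fun h1 => hns (fun y hy => ?_))
      refine (hmem ⟨y, hy⟩).1 ?_
      rw [h1]
      exact MonoidHom.mem_ker.2 rfl
    have hkerP : (χ.comp (Subgroup.inclusion hP)).ker =
        (G.Dg l g ⊓ V1).subgroupOf (G.Dg l g ⊓ V) := by
      ext y
      rw [hmem, Subgroup.mem_subgroupOf, Subgroup.mem_inf]
      exact ⟨fun hy => ⟨y.2.1, hy⟩, fun hy => hy.2⟩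
    have h0 : cycCl (Lall.sub (G.Dg l g ⊓ V)) (rsub Gm (G.Dg l g ⊓ V))
        (χ.comp (Subgroup.inclusion hP)) hχP ((Pair.resLE Lall Gm hP).map0 b) = 0 := by
      rw [← cycCl_resLE hP χ hχ, ← hb, ← ι2_resLE, hx l g, map_zero]
    rw [cycCl_eq_zero_iff _ _ _ _ hsP (h90_Gm_sub _ _)] at h0
    have := (mem_normSub_iff_isNormFrom p _ hχP hsP hkerP (inf_le_inf_left _ h) _).1 h0
    rwa [ofH0_resLE] at this
  have hopen : IsOpenIn V V1 := by
    obtain ⟨E, hE, hle⟩ := Lall_isOpen_iff.1 hV1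
    exact ⟨h, E, hE, inf_le_right.trans hle⟩
  have hglob := G.HNT_Fix hL hp2 V V1 hV hopen hn hi hω (ofH0 b) (ofH0_mem b) (ofH0_ne_zero b) hloc
  have hb0 : cycCl (Lall.sub V) (rsub Gm V) χ hχ b = 0 :=
    (cycCl_eq_zero_iff _ _ _ _ hs (h90_Gm_sub _ _) b).2
      ((mem_normSub_iff_isNormFrom p χ hχ hs hker h b).2 hglob)
  apply (gmDatum p V).ι2_injective
  rw [hb, hb0, map_zero]

theorem isOpen_ker_cycloChar : Lall.IsOpen (cycloChar p).ker := by
  obtain ⟨F, hF, hle⟩ := exists_unramified_cyclo p {pPrime p} (Finset.mem_singleton_self _)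
  exact Lall_isOpen_iff.2 ⟨F, hF.1, hle⟩

theorem index_ker_cycloChar_dvd : (cycloChar p).ker.index ∣ p - 1 := by
  rw [Subgroup.index_ker, ← ZMod.card_units p, ← Nat.card_eq_fintype_card]
  exact Subgroup.card_subgroup_dvd_card _

theorem not_dvd_index_ker_cycloChar : ¬ p ∣ (cycloChar p).ker.index := by
  intro h
  have hp : 2 ≤ p := (Fact.out : p.Prime).two_le
  have := Nat.le_of_dvd (by omega) (h.trans index_ker_cycloChar_dvd)
  omega

/-- **(G8) Hasse principle.** -/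
theorem hasse_principle (hL : G.LocalNormIndexFix p) (hp2 : p ≠ 2) (U : Subgroup GQ)
    (hU : Lall.IsOpen U) (x : H2 (Lall.sub U) (rsub (mu p) U)) (hx : LocTriv p U x) : x = 0 :=
  sylow_devissage Lall (mu p) (cycloChar p).ker isOpen_ker_cycloChar not_dvd_index_ker_cycloChar
    (LocTriv p) (fun _ _ h _ hx => hx.resLE h)
    (fun V V1 h hV hV1 hω hn hi x hx hres => hasse_step hL hp2 V V1 h hV hV1 hω hn hi x hx hres)
    U hU x hx

end Fermat.Agent.S55

end
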