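import Mathlib

/-!
# S55/B-URAbs : a 2-cocycle inflated from a finite cyclic quotient dies in a bigger cyclic quotient
(pure group theory, Mathlib only; blueprint part 6, (UR)).

`D` a group, `N' ≤ N` normal subgroups, `s ∈ D` generates `D/N'`; `s` has order `f` in `D/N` and `f'` in
`D/N'`, `p f ∣ f'`.  `z : D × D → 𝔽_p` a normalised 2-cocycle (trivial action) which is right
`N`-invariant in both variables.  Then `z = d1 y` with `y` right `N'`-invariant, `y 1 = 0`.

PROOF.  As `N` is normal, `z (g,h)` only depends on `g, h` mod `N` (left and right).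
Normalisation: `z (g,1) = z (1,g) = z (1,1) = 0` (cocycle identity with `(g,1,1)`, `(1,1,g)`).
Put `Y : ℕ → 𝔽_p`, `Y n = - ∑_{i<n} z (s^i, s)`.
(1) `Y b - Y (a+b) + Y a = z (s^a, s^b)` by induction on `b`, using the cocycle identity for
    `(s^a, s^b, s)`:  `z (s^b,s) + z (s^a, s^(b+1)) = z (s^(a+b), s) + z (s^a, s^b)`.
(2) `Y (n+f) = Y n - B`, `B = ∑_{i<f} z (s^i, s)` (the summand is `f`-periodic as `s^f ∈ N`);
    so `Y (n + f') = Y n - (f'/f) B = Y n` because `p ∣ f'/f`; hence `Y a = Y b` if `a ≡ b mod f'`.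
(3) for `g : D` choose `k g : ℕ` with `(s^(k g))⁻¹ g ∈ N'`; `y g := Y (k g)`.  If `(s^a)⁻¹ g ∈ N'` then
    `s^a ≡ s^(k g) mod N'`, so `a ≡ k g mod f'` (use `hsN'` for the difference) and `y g = Y a`.
    Hence `y` is right `N'`-invariant, `y 1 = Y 0 = 0`, `y (g h) = Y (k g + k h)` (`N'` normal), and
    `z (g,h) = z (s^(k g), s^(k h))`.
-/

set_option autoImplicit false

namespace Fermat.Agent.S55.B

theorem ur_abstract {D : Type} [Group D] {p : ℕ} [Fact p.Prime] (N N' : Subgroup D)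
    (hN'N : N' ≤ N) (hnorm : N.Normal) (hnorm' : N'.Normal)
    (s : D) (f f' : ℕ) (hf : 0 < f) (hf' : 0 < f') (hdvd : p * f ∣ f')
    (hsN : ∀ k : ℕ, s ^ k ∈ N ↔ f ∣ k) (hsN' : ∀ k : ℕ, s ^ k ∈ N' ↔ f' ∣ k)
    (hgen : ∀ g : D, ∃ k : ℕ, (s ^ k)⁻¹ * g ∈ N')
    (z : D × D → ZMod p)
    (hcoc : ∀ g h j : D, z (h, j) + z (g, h * j) = z (g * h, j) + z (g, h))
    (hlev : ∀ g g' : D, ∀ n ∈ N, ∀ n' ∈ N, z (g * n, g' * n') = z (g, g'))
    (h1 : z (1, 1) = 0) :
    ∃ y : D → ZMod p, (∀ g : D, ∀ n ∈ N', y (g * n) = y g) ∧ y 1 = 0 ∧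
      ∀ g h : D, z (g, h) = y h - y (g * h) + y g := by
  classical
  -- normalisation
  have hz1 : ∀ g : D, z (g, 1) = 0 := by
    intro g
    have h := hcoc g 1 1
    simp only [mul_one, h1, zero_add] at h
    have h' : z (g, 1) + 0 = z (g, 1) + z (g, 1) := by rw [add_zero]; exact h
    exact (add_left_cancel h').symm
  -- the primitive on powers of `s`
  let Y : ℕ → ZMod p := fun n => - ∑ i ∈ Finset.range n, z (s ^ i, s)
  have hY0 : Y 0 = 0 := by simp [Y]
  have hYs : ∀ n : ℕ, Y (n + 1) = Y n - z (s ^ n, s) := by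
    intro n
    simp only [Y, Finset.sum_range_succ]
    ring
  -- (1)
  have hone : ∀ a b : ℕ, Y b - Y (a + b) + Y a = z (s ^ a, s ^ b) := by
    intro a b
    induction b with
    | zero => simp [hY0, hz1]
    | succ b ih =>
      have h := hcoc (s ^ a) (s ^ b) s
      rw [← pow_succ, ← pow_add] at h
      rw [← add_assoc, hYs, hYs]
      linear_combination ih - h
  -- (2)
  have hYf : ∀ n : ℕ, Y (n + f) = Y n + Y f := by
    intro n
    have h := hone n f
    have h2 : z (s ^ n, s ^ f) = 0 := by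
      have h3 := hlev (s ^ n) 1 1 N.one_mem (s ^ f) ((hsN f).2 dvd_rfl)
      rw [mul_one, one_mul] at h3
      rw [h3, hz1]
    rw [h2] at h
    linear_combination -h
  have hYmf : ∀ n m : ℕ, Y (n + m * f) = Y n + m * Y f := by
    intro n m
    induction m with
    | zero => simp
    | succ m ih =>
      rw [Nat.succ_mul, ← add_assoc, hYf, ih]
      push_cast
      ring
  have hYf' : ∀ n : ℕ, Y (n + f') = Y n := by
    intro n
    obtain ⟨c, rfl⟩ := hdvd
    have : p * f * c = (p * c) * f := by ring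
    rw [this, hYmf]
    push_cast
    simp
  have hYmf' : ∀ n m : ℕ, Y (n + f' * m) = Y n := by
    intro n m
    induction m with
    | zero => simp
    | succ m ih => rw [Nat.mul_succ, ← add_assoc, hYf', ih]
  have hYcongr : ∀ a b : ℕ, (s ^ a)⁻¹ * s ^ b ∈ N' → Y a = Y b := by
    intro a b hab
    rcases le_total a b with h | h
    · obtain ⟨d, rfl⟩ := Nat.exists_eq_add_of_le h
      rw [pow_add, inv_mul_cancel_left] at hab
      obtain ⟨m, rfl⟩ := (hsN' d).1 hab
      exact (hYmf' a m).symm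
    · obtain ⟨d, rfl⟩ := Nat.exists_eq_add_of_le h
      have hab' := N'.inv_mem hab
      rw [mul_inv_rev, inv_inv, pow_add, inv_mul_cancel_left] at hab'
      obtain ⟨m, rfl⟩ := (hsN' d).1 hab'
      exact hYmf' b m
  -- (3)
  choose k hk using hgen
  have hy : ∀ (g : D) (a : ℕ), (s ^ a)⁻¹ * g ∈ N' → Y (k g) = Y a := by
    intro g a ha
    apply hYcongr
    have h := N'.mul_mem (hk g) (N'.inv_mem ha)
    have e : (s ^ k g)⁻¹ * g * ((s ^ a)⁻¹ * g)⁻¹ = (s ^ k g)⁻¹ * s ^ a := by group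
    rwa [e] at h
  refine ⟨fun g => Y (k g), ?_, ?_, ?_⟩
  · intro g n hn
    apply hy
    rw [← mul_assoc]
    exact N'.mul_mem (hk g) hn
  · rw [← hY0]
    apply hy
    simp
  · intro g h
    have hgh : Y (k (g * h)) = Y (k g + k h) := by
      apply hy
      have h1' : h⁻¹ * ((s ^ k g)⁻¹ * g) * h⁻¹⁻¹ ∈ N' := hnorm'.conj_mem _ (hk g) h⁻¹
      have h2' := N'.mul_mem (hk h) h1'
      have e : (s ^ k h)⁻¹ * h * (h⁻¹ * ((s ^ k g)⁻¹ * g) * h⁻¹⁻¹) =
          (s ^ (k g + k h))⁻¹ * (g * h) := by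
        rw [pow_add]; group
      rwa [e] at h2'
    have hz : z (g, h) = z (s ^ k g, s ^ k h) := by
      have h3 := hlev (s ^ k g) (s ^ k h) _ (hN'N (hk g)) _ (hN'N (hk h))
      rwa [mul_inv_cancel_left, mul_inv_cancel_left] at h3
    show z (g, h) = Y (k h) - Y (k (g * h)) + Y (k g)
    rw [hz, hgh, hone]

end Fermat.Agent.S55.B
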