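import Fermat.Agent.S55.B.BasicOpen
import Fermat.Agent.S55.B.URAbs
import Fermat.Agent.S55.Places.UnramQuot

/-!
# S55/B-UR : (UR) `S`-level 2-cocycles are "unramified coboundaries" at the places outside `S`
(blueprint part 6).

`U` an `S`-open subgroup of `GQ` inside `ker ω`; `(q,g)` a place outside `S`; `D = Dg q g ⊓ U`.
`z` a normalised `S`-level 2-cocycle of `U` with values in `μ_p` (trivial action on `U`).
Then `z|_D = d1 y`, `y` right invariant under an open `N' ⊇ Ig q g` of `D`, `y 1 = 0`.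

PROOF.  Step 0 (reduction to `g = 1`): replace `U` by `g⁻¹ U g` (again `S`-open: `Levels.IsOpen.conj`, inside
`ker ω` which is normal) and `z` by `z'(a,b) = z(g a g⁻¹, g b g⁻¹)`; or run Step 1 directly for the conjugated
groups after transporting `exists_unramified_refinement`, `conj_mem_of_inertia_le` by conjugation.
Step 1 (`g = 1`): `W = Dq q ⊓ U` is open in `Dq q` (`isOpenIn_inf_of_isOpen`), `Iq q ≤ U` (`Ig_le_of_isOpen`).
`z` is right invariant under an `S`-open normal `N₀` (`mem_Z2`, `isLevel₂_sub_iff`), `Iq q ≤ N₀`.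
`N = W ⊓ N₀` is open in `W` and contains `W ⊓ Iq q`.  `Places.exists_unramified_refinement` with `m = p` gives
`N', s, f, f'`; `N, N'` are normal in `W` by `Places.conj_mem_of_inertia_le`.  Apply `ur_abstract` to the group
`↥W`, the subgroups `N.subgroupOf W`, `N'.subgroupOf W`.  The action of `U` on `μ_p` is trivial since
`U ≤ ker ω` (`mu_apply_of_mem_ker`), so `mem_Z2` gives the cocycle identity `hcoc`.
-/

set_option autoImplicit false

noncomputable section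

namespace Fermat.Agent.S55.B

open Places ExtCitation G

variable (p : ℕ) [Fact p.Prime] {S : Finset Nat.Primes}

theorem mu_apply_of_mem_ker {g : GQ} (hg : g ∈ (cycloChar p).ker) (a : ZMod p) :
    mu p g a = a := by
  rw [mu_apply, MonoidHom.mem_ker.1 hg, Units.val_one, one_mul]

theorem UR_mem_conj {H : Subgroup GQ} {g x : GQ} :
    x ∈ H.map (MulAut.conj g).toMonoidHom ↔ g⁻¹ * x * g ∈ H := by
  rw [Subgroup.mem_map]
  constructor
  · rintro ⟨d, hd, rfl⟩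
    simpa [MulAut.conj_apply, mul_assoc] using hd
  · intro h
    exact ⟨_, h, by simp [MulAut.conj_apply, mul_assoc]⟩

theorem UR_map_map_conj (H : Subgroup GQ) (g : GQ) :
    (H.map (MulAut.conj g⁻¹).toMonoidHom).map (MulAut.conj g).toMonoidHom = H := by
  ext x
  rw [UR_mem_conj, UR_mem_conj]
  simp [mul_assoc]

/-- (UR) at the standard place, for an arbitrary open subgroup `W` of `D_q`. -/
theorem UR_std {q : ℕ} [Fact q.Prime] {W N : Subgroup GQ} (hW : IsOpenIn (Dq q) W)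
    (hN : IsOpenIn W N) (hI : W ⊓ Iq q ≤ N) (z : ↥W × ↥W → ZMod p)
    (hcoc : ∀ a b c : ↥W, z (b, c) + z (a, b * c) = z (a * b, c) + z (a, b))
    (hlev : ∀ a b n m : ↥W, (n : GQ) ∈ N → (m : GQ) ∈ N → z (a * n, b * m) = z (a, b))
    (h1 : z (1, 1) = 0) :
    ∃ (N' : Subgroup GQ) (y : ↥W → ZMod p), IsOpenIn W N' ∧ W ⊓ Iq q ≤ N' ∧
      (∀ a n : ↥W, (n : GQ) ∈ N' → y (a * n) = y a) ∧ y 1 = 0 ∧
      ∀ a b : ↥W, z (a, b) = y b - y (a * b) + y a := by
  obtain ⟨N', hN', hN'N, hI', s, hs, f, f', hf, hf', hdvd, hsN, hsN', hgen⟩ :=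
    exists_unramified_refinement hW hN hI p (Fact.out : p.Prime).pos
  have hnorm : (N.subgroupOf W).Normal := by
    constructor
    intro n hn a
    rw [Subgroup.mem_subgroupOf] at hn ⊢
    exact conj_mem_of_inertia_le hW hN hI a.2 hn
  have hnorm' : (N'.subgroupOf W).Normal := by
    constructor
    intro n hn a
    rw [Subgroup.mem_subgroupOf] at hn ⊢
    exact conj_mem_of_inertia_le hW hN' hI' a.2 hn
  obtain ⟨y, hy1, hy2, hy3⟩ := ur_abstract (N.subgroupOf W) (N'.subgroupOf W)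
    (fun x hx => hN'N hx) hnorm hnorm' ⟨s, hs⟩ f f' hf hf' hdvd
    (fun k => by rw [Subgroup.mem_subgroupOf]; exact hsN k)
    (fun k => by rw [Subgroup.mem_subgroupOf]; exact hsN' k)
    (fun a => by
      obtain ⟨k, hk⟩ := hgen a a.2
      exact ⟨k, by rw [Subgroup.mem_subgroupOf]; exact hk⟩)
    z hcoc (fun a b n hn m hm => hlev a b n m hn hm) h1
  exact ⟨N', y, hN', hI', fun a n hn => hy1 a n hn, hy2, hy3⟩

/-- (UR) -/
theorem UR {q : Nat.Primes} (hq : q ∉ S) (g : GQ) {U : Subgroup GQ} (hU : (LS S).IsOpen U)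
    (hω : U ≤ (cycloChar p).ker) (z : ↥U × ↥U → ZMod p)
    (hz : z ∈ Z2 ((LS S).sub U) (rsub (mu p) U)) (h1 : z (1, 1) = 0) :
    ∃ (N' : Subgroup GQ) (y : ↥(Dg q g ⊓ U) → ZMod p),
      IsOpenIn (Dg q g ⊓ U) N' ∧ Ig q g ≤ N' ∧
      (∀ a n : ↥(Dg q g ⊓ U), (n : GQ) ∈ N' → y (a * n) = y a) ∧ y 1 = 0 ∧
      ∀ a b : ↥(Dg q g ⊓ U),
        z (Subgroup.inclusion inf_le_right a, Subgroup.inclusion inf_le_right b) =
          y b - y (a * b) + y a := by
  have : Fact (q : ℕ).Prime := ⟨q.2⟩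
  obtain ⟨hcoc, hlev⟩ := mem_Z2.1 hz
  obtain ⟨N₁, hN₁, hN₁n, hlev₁⟩ := (isLevel₂_sub_iff (LS S) U z).1 hlev
  set W : Subgroup GQ := Dg q g ⊓ U with hWdef
  set W₀ : Subgroup GQ := W.map (MulAut.conj g⁻¹).toMonoidHom with hW₀def
  have hWW₀ : W₀.map (MulAut.conj g).toMonoidHom = W := UR_map_map_conj W g
  -- the two conjugation maps
  have hmem₀ : ∀ a : ↥W₀, g * (a : GQ) * g⁻¹ ∈ W := by
    intro a
    have := UR_mem_conj.1 a.2
    simpa using this
  have hmem : ∀ a : ↥W, g⁻¹ * (a : GQ) * g ∈ W₀ := by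
    intro a
    rw [hW₀def, UR_mem_conj]
    simp [mul_assoc]
  let e : ↥W₀ → ↥W := fun a => ⟨g * (a : GQ) * g⁻¹, hmem₀ a⟩
  let e' : ↥W → ↥W₀ := fun a => ⟨g⁻¹ * (a : GQ) * g, hmem a⟩
  have he_mul : ∀ a b : ↥W₀, e (a * b) = e a * e b := by
    intro a b
    apply Subtype.ext
    simp [e, mul_assoc]
  have he'_mul : ∀ a b : ↥W, e' (a * b) = e' a * e' b := by
    intro a b
    apply Subtype.ext
    simp [e', mul_assoc]
  have he_one : e 1 = 1 := by
    apply Subtype.ext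
    simp [e]
  have he'_one : e' 1 = 1 := by
    apply Subtype.ext
    simp [e']
  have hee' : ∀ a : ↥W, e (e' a) = a := by
    intro a
    apply Subtype.ext
    simp [e, e', mul_assoc]
  -- openness
  have hD₀ : (Dg q g).map (MulAut.conj g⁻¹).toMonoidHom = Dq (q : ℕ) := by
    ext x
    rw [UR_mem_conj, mem_Dg_iff]
    simp [mul_assoc]
  have hW₀open : IsOpenIn (Dq (q : ℕ)) W₀ := by
    have h2 := (isOpenIn_inf_of_isOpen (Dg q g) (LS_le_Lall U hU)).conj g⁻¹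
    rwa [hD₀] at h2
  have hNopen : IsOpenIn W₀ (W₀ ⊓ N₁) := isOpenIn_inf_of_isOpen W₀ (LS_le_Lall N₁ hN₁)
  have hIN₁ : Iq (q : ℕ) ≤ N₁ := by
    intro x hx
    apply Ig_le_of_isOpen hN₁ hq 1
    rw [mem_Ig_iff]
    simpa using hx
  have hI : W₀ ⊓ Iq (q : ℕ) ≤ W₀ ⊓ N₁ := inf_le_inf_left _ hIN₁
  -- the transported cocycle
  let i : ↥W → ↥U := Subgroup.inclusion inf_le_right
  have hi_mul : ∀ a b : ↥W, i (a * b) = i a * i b := fun a b => rfl
  let z₀ : ↥W₀ × ↥W₀ → ZMod p := fun x => z (i (e x.1), i (e x.2))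
  have hcoc₀ : ∀ a b c : ↥W₀, z₀ (b, c) + z₀ (a, b * c) = z₀ (a * b, c) + z₀ (a, b) := by
    intro a b c
    have h2 := hcoc (i (e a)) (i (e b)) (i (e c))
    have h3 : rsub (mu p) U (i (e a)) (z (i (e b), i (e c))) = z (i (e b), i (e c)) :=
      mu_apply_of_mem_ker p (hω (i (e a)).2) _
    rw [h3] at h2
    simp only [z₀, he_mul, hi_mul]
    exact h2
  have hlev₀ : ∀ a b n m : ↥W₀, (n : GQ) ∈ W₀ ⊓ N₁ → (m : GQ) ∈ W₀ ⊓ N₁ →
      z₀ (a * n, b * m) = z₀ (a, b) := by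
    intro a b n m hn hm
    simp only [z₀, he_mul, hi_mul]
    exact hlev₁ _ _ _ _ (hN₁n.conj_mem _ hn.2 g) (hN₁n.conj_mem _ hm.2 g)
  have h1₀ : z₀ (1, 1) = 0 := by
    simp only [z₀, he_one]
    exact h1
  obtain ⟨N₀', y₀, hN₀', hI₀', hy1, hy2, hy3⟩ := UR_std p hW₀open hNopen hI z₀ hcoc₀ hlev₀ h1₀
  refine ⟨N₀'.map (MulAut.conj g).toMonoidHom, fun a => y₀ (e' a), ?_, ?_, ?_, ?_, ?_⟩
  · have h2 := hN₀'.conj g
    rwa [hWW₀] at h2
  · intro x hx
    rw [UR_mem_conj]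
    have hxW : x ∈ W := ⟨Ig_le_Dg q g hx, Ig_le_of_isOpen hU hq g hx⟩
    exact hI₀' ⟨hmem ⟨x, hxW⟩, (mem_Ig_iff q g).1 hx⟩
  · intro a n hn
    show y₀ (e' (a * n)) = y₀ (e' a)
    rw [he'_mul]
    exact hy1 _ _ (UR_mem_conj.1 hn)
  · show y₀ (e' 1) = 0
    rw [he'_one]
    exact hy2
  · intro a b
    have h2 := hy3 (e' a) (e' b)
    simp only [z₀, hee'] at h2
    show z (i a, i b) = y₀ (e' b) - y₀ (e' (a * b)) + y₀ (e' a)
    rw [he'_mul]
    exact h2

end Fermat.Agent.S55.B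

end
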