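import Fermat.Agent.S55.B.BasicIg
import Fermat.Agent.S55.Places.Galois
import Fermat.Agent.S55.G.BridgeModel

/-!
# S55/B-BasicOpen : open subgroups of `GQ` for `Lall`, `LS S`, and level functions on subgroups.
Tools: `Arith/Defs` (`Lall_isOpen_iff`, `LS_isOpen_iff`, `LS_le_Lall`, `isOpen_sub_iff`), `Coh/Level.lean`
(`Levels.isOpen_sub_iff`, `IsLevel₁.exists_normal`, ...), `Places/Transitive.lean` (`isUnramifiedOutside_iff`),
`Places/Galois` (`IsOpenIn.*`), `G/BridgeModel.lean` (`BridgeModel.mem_of_fixes_Fix`, `finiteDimensional_Fix`),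
`B/BasicIg` (`mem_Ig_iff`).
KEY LEMMA `isOpen_LS_of_Ig_le`: `U` open, so `U = (Fix U).fixingSubgroup`, `Fix U` a number field; it is
unramified outside `S` by `isUnramifiedOutside_iff` since all `g h g⁻¹`, `h ∈ I_l`, `l ∉ S`, lie in `U`.
-/

set_option autoImplicit false

noncomputable section

namespace Fermat.Agent.S55.B

open Places ExtCitation G

variable {S : Finset Nat.Primes}

theorem Ig_le_of_isOpen {U : Subgroup GQ} (hU : (LS S).IsOpen U) {q : Nat.Primes} (hq : q ∉ S)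
    (g : GQ) : Ig q g ≤ U := by
  obtain ⟨E, hE, hEU⟩ := LS_isOpen_iff.1 hU
  intro x hx
  have h1 := ((isUnramifiedOutside_iff E S).1 hE).2 q hq g _ ((mem_Ig_iff q g).1 hx)
  have h2 : g * (g⁻¹ * x * g) * g⁻¹ = x := by group
  rw [h2] at h1
  exact hEU h1

/-- KEY: an open subgroup containing all inertia groups outside `S` is `S`-open. -/
theorem isOpen_LS_of_Ig_le {U : Subgroup GQ} (hU : Lall.IsOpen U)
    (h : ∀ q : Nat.Primes, q ∉ S → ∀ g : GQ, Ig q g ≤ U) : (LS S).IsOpen U := by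
  refine LS_isOpen_iff.2 ⟨Places.Fix U, (isUnramifiedOutside_iff _ S).2
    ⟨BridgeModel.finiteDimensional_Fix hU, fun l hl g x hx => ?_⟩, fun g hg => ?_⟩
  · have h1 : g * x * g⁻¹ ∈ U := by
      refine h l hl g ((mem_Ig_iff l g).2 ?_)
      have h2 : g⁻¹ * (g * x * g⁻¹) * g = x := by group
      rw [h2]
      exact hx
    rw [IntermediateField.mem_fixingSubgroup_iff]
    intro y hy
    exact (IntermediateField.mem_fixedField_iff _ _).1 hy _ h1
  · exact BridgeModel.mem_of_fixes_Fix hU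
      (fun x hx => (IntermediateField.mem_fixingSubgroup_iff _ _).1 hg x hx)

/-- `IsOpenIn` versus `Levels.sub` for subgroups of `GQ` contained in `H`. -/
theorem isOpen_sub_subgroupOf_iff {H W : Subgroup GQ} (hW : W ≤ H) :
    (Lall.sub H).IsOpen (W.subgroupOf H) ↔ IsOpenIn H W := by
  rw [isOpen_sub_iff, Subgroup.subgroupOf_map_subtype, inf_eq_left.2 hW]

/-- `D ⊓ U` is open in `D` -/
theorem isOpenIn_inf_of_isOpen (D : Subgroup GQ) {U : Subgroup GQ} (hU : Lall.IsOpen U) :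
    IsOpenIn D (D ⊓ U) := by
  obtain ⟨E, hE, hEU⟩ := Lall_isOpen_iff.1 hU
  exact ⟨inf_le_left, E, hE, inf_le_inf_left D hEU⟩

variable {Y : Type}

/-- level functions on a subgroup `H` of `GQ`, in terms of subgroups of `GQ` -/
theorem isLevel₁_sub_iff (L : Levels GQ) (H : Subgroup GQ) (f : ↥H → Y) :
    (L.sub H).IsLevel₁ f ↔ ∃ N : Subgroup GQ, L.IsOpen N ∧ N.Normal ∧
      ∀ a n : ↥H, (n : GQ) ∈ N → f (a * n) = f a := by
  constructor
  · rintro ⟨U', ⟨U, hU, hle⟩, h⟩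
    obtain ⟨N, hN, hNU, hNn, -⟩ := L.exists_normal hU
    exact ⟨N, hN, hNn, fun a n hn => h a n (hle (hNU hn))⟩
  · rintro ⟨N, hN, -, h⟩
    exact ⟨N.comap H.subtype, ⟨N, hN, le_rfl⟩, fun a n hn => h a n hn⟩

theorem isLevel₂_sub_iff (L : Levels GQ) (H : Subgroup GQ) (f : ↥H × ↥H → Y) :
    (L.sub H).IsLevel₂ f ↔ ∃ N : Subgroup GQ, L.IsOpen N ∧ N.Normal ∧
      ∀ a b n m : ↥H, (n : GQ) ∈ N → (m : GQ) ∈ N → f (a * n, b * m) = f (a, b) := by
  constructor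
  · rintro ⟨U', ⟨U, hU, hle⟩, h⟩
    obtain ⟨N, hN, hNU, hNn, -⟩ := L.exists_normal hU
    exact ⟨N, hN, hNn, fun a b n m hn hm => h a b n (hle (hNU hn)) m (hle (hNU hm))⟩
  · rintro ⟨N, hN, -, h⟩
    exact ⟨N.comap H.subtype, ⟨N, hN, le_rfl⟩, fun a b n hn m hm => h a b n m hn hm⟩

/-- a function on `H` which is right invariant under a subgroup `N'` open in `H` is a level function -/
theorem isLevel₁_of_isOpenIn {H N' : Subgroup GQ} (hN' : IsOpenIn H N') {f : ↥H → Y}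
    (hf : ∀ a n : ↥H, (n : GQ) ∈ N' → f (a * n) = f a) : (Lall.sub H).IsLevel₁ f := by
  exact ⟨N'.subgroupOf H, (isOpen_sub_subgroupOf_iff hN'.1).2 hN', fun a n hn => hf a n hn⟩

/-- restriction of level functions -/
theorem isLevel₁_comp_inclusion (L : Levels GQ) {W H : Subgroup GQ} (h : W ≤ H) {f : ↥H → Y}
    (hf : (L.sub H).IsLevel₁ f) : (L.sub W).IsLevel₁ (fun a : ↥W => f (Subgroup.inclusion h a)) := by
  obtain ⟨U', ⟨U, hU, hle⟩, hU'⟩ := hf
  refine ⟨U.comap W.subtype, ⟨U, hU, le_rfl⟩, fun a s hs => ?_⟩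
  dsimp only
  rw [map_mul]
  exact hU' _ _ (hle hs)

theorem isLevel₁_LS_le_Lall {H : Subgroup GQ} {f : ↥H → Y} (hf : ((LS S).sub H).IsLevel₁ f) :
    (Lall.sub H).IsLevel₁ f := by
  obtain ⟨U', ⟨U, hU, hle⟩, h⟩ := hf
  exact ⟨U', ⟨U, LS_le_Lall U hU, hle⟩, h⟩

theorem isLevel₂_LS_le_Lall {H : Subgroup GQ} {f : ↥H × ↥H → Y}
    (hf : ((LS S).sub H).IsLevel₂ f) : (Lall.sub H).IsLevel₂ f := by
  obtain ⟨U', ⟨U, hU, hle⟩, h⟩ := hf
  exact ⟨U', ⟨U, LS_le_Lall U hU, hle⟩, h⟩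

end Fermat.Agent.S55.B

end
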