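import Fermat.Agent.S55.B.Ord
import Fermat.Agent.S55.B.BasicOpen

/-!
# S55/B-Count : dictionary `U ↔ (K, ι)` : degree, roots of unity, number of places over `S`.

* `exists_model1`: `K = ↥(Places.Fix U)`, `ι = algebraMap` (`(Places.Fix U).val`); `G.BridgeModel.finiteDimensional_Fix`,
  `G.BridgeModel.mem_of_fixes_Fix`  (compare the proof of `G.exists_model` in `G/BridgeModel.lean`).
* `index_fixG`: `G.fixingSubgroup_rangeNF`, `G.finiteDimensional_rangeNF`, `Places.IsOpenIn.relfinrank_eq` with `H = ⊤` (or Mathlib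
  `IntermediateField.finrank_eq_fixingSubgroup_index`), `finrank ℚ (rangeNF ι) = finrank ℚ K` (`G.BridgeVal.eqv`).
* `exists_zeta_of_le`: `zeta p` is fixed by `ker ω` (`cycloChar_spec`), so it lies in `Fix (fixG ι) = rangeNF ι` (`G.Fix_fixG`).
* `ncard_SK`: for `q ∈ S` the map `GQ → Pl K`, `x ↦` the place under `(q, x⁻¹)` (`G.exists_isAt'`, `IsAt.unique`) is constant on the double cosets
  `D_q x U` and separates them (`IsAt.samePlace`, `IsAt.of_samePlace`: `SamePlace U (q,g) (q,g') ↔ g' ∈ U g D_q`, use `G.mem_Dg_iff`), so it induces a bijection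
  `orbitRel.Quotient (DqP q) (GQ ⧸ U) ≃ {v | ∃ g, IsAt ι v q g}`; these sets are pairwise disjoint for distinct `q` (`IsAt.prime_unique`) and finite
  (`finite_setOf_isAt`); `Set.ncard` of the disjoint union over `q ∈ S`.   (`DqP q = Dq q` by `rfl`, `Z/ArithDatum.lean`.)
-/

set_option autoImplicit false

open IsDedekindDomain NumberField Module

noncomputable section

namespace Fermat.Agent.S55.B

open Places ExtCitation G

theorem exists_model1 {U : Subgroup GQ} (hU : Lall.IsOpen U) :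
    ∃ (K : Type) (_ : Field K) (_ : NumberField K) (ι : K →+* Qbar), fixG ι = U := by
  have hfdK : FiniteDimensional ℚ (Places.Fix U) := BridgeModel.finiteDimensional_Fix hU
  have hnfK : NumberField (Places.Fix U) :=
    { to_charZero := inferInstance, to_finiteDimensional := hfdK }
  refine ⟨Places.Fix U, inferInstance, hnfK, algebraMap (Places.Fix U) Qbar, ?_⟩
  ext g
  constructor
  · intro hg
    refine BridgeModel.mem_of_fixes_Fix hU fun x hx => ?_
    exact hg (⟨x, hx⟩ : Places.Fix U)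
  · intro hg x
    have hx : (x : Qbar) ∈ Places.Fix U := x.2
    rw [IntermediateField.mem_fixedField_iff] at hx
    exact hx g hg

variable {K : Type} [Field K] [NumberField K] (ι : K →+* Qbar)

theorem index_fixG : (fixG ι).index = finrank ℚ K := by
  have := isGalois_Qbar
  rw [← fixingSubgroup_rangeNF, ← IntermediateField.finrank_eq_fixingSubgroup_index]
  let e : K ≃ₗ[ℚ] rangeNF ι :=
    { (BridgeVal.eqv ι).toAddEquiv with
      map_smul' := fun r x => by
        change BridgeVal.eqv ι (r • x) = r • BridgeVal.eqv ι x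
        rw [Algebra.smul_def, Algebra.smul_def, map_mul, eq_ratCast, eq_ratCast, map_ratCast] }
  exact e.finrank_eq.symm

theorem exists_zeta_of_le {p : ℕ} [Fact p.Prime] (hω : fixG ι ≤ (cycloChar p).ker) :
    ∃ ζ : K, IsPrimitiveRoot ζ p := by
  have hz : IsPrimitiveRoot ((zeta p : Qbarˣ) : Qbar) p :=
    IsPrimitiveRoot.coe_units_iff.2 (zeta_spec p)
  have hmem : ((zeta p : Qbarˣ) : Qbar) ∈ Places.Fix (fixG ι) := by
    rw [IntermediateField.mem_fixedField_iff]
    intro g hg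
    have h1 : ExtCitation.cycloChar p g = 1 := hω hg
    rw [cycloChar_spec p g (zeta p) (zeta_spec p).pow_eq_one, h1]
    have : Fact (1 < p) := ⟨(Fact.out : p.Prime).one_lt⟩
    simp [ZMod.val_one]
  rw [Fix_fixG, mem_rangeNF] at hmem
  obtain ⟨y, hy⟩ := hmem
  refine ⟨y, ?_⟩
  rw [← hy] at hz
  exact IsPrimitiveRoot.of_map_of_injective (f := ι) hz ι.injective

theorem finite_SK (S : Finset Nat.Primes) : (SK S ι).Finite := finite_setOf_isAt ι S

theorem Count_finite_setOf_isAt (q : Nat.Primes) : {v : Pl K | ∃ g : GQ, IsAt ι v q g}.Finite := by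
  refine (finite_setOf_isAt ι {q}).subset ?_
  rintro v ⟨g, hg⟩
  exact ⟨q, Finset.mem_singleton_self q, g, hg⟩

/-- `SamePlace` in terms of double cosets. -/
theorem Count_samePlace_iff (U : Subgroup GQ) (q : Nat.Primes) (g g' : GQ) :
    SamePlace U (q, g) (q, g') ↔ ∃ u ∈ U, ∃ d ∈ DqP q, g' = u * g * d := by
  constructor
  · rintro ⟨-, u, hu, _, ⟨d, hd, rfl⟩, h⟩
    refine ⟨u, hu, d, hd, ?_⟩
    simp only at h
    rw [h]
    simp only [MulEquiv.coe_toMonoidHom, MulAut.conj_apply]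
    group
  · rintro ⟨u, hu, d, hd, rfl⟩
    refine ⟨rfl, u, hu, g * d * g⁻¹, ⟨d, hd, rfl⟩, ?_⟩
    simp only
    group

/-- places of `K` over `q` = double cosets `D_q \ GQ / U`. -/
theorem ncard_setOf_isAt (q : Nat.Primes) :
    {v : Pl K | ∃ g : GQ, IsAt ι v q g}.ncard =
      Nat.card (MulAction.orbitRel.Quotient ↥(DqP q) (GQ ⧸ fixG ι)) := by
  rw [← Nat.card_coe_set_eq]
  choose γ hγ using fun v : {v : Pl K | ∃ g : GQ, IsAt ι v q g} => v.2
  let F : {v : Pl K | ∃ g : GQ, IsAt ι v q g} →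
      MulAction.orbitRel.Quotient ↥(DqP q) (GQ ⧸ fixG ι) :=
    fun v => Quotient.mk'' (((γ v)⁻¹ : GQ) : GQ ⧸ fixG ι)
  refine Nat.card_eq_of_bijective F ⟨?_, ?_⟩
  · intro v v' h
    have h1 : (((γ v)⁻¹ : GQ) : GQ ⧸ fixG ι) ∈
        MulAction.orbit ↥(DqP q) (((γ v')⁻¹ : GQ) : GQ ⧸ fixG ι) := Quotient.eq''.1 h
    obtain ⟨d, hd⟩ := h1
    have h2 : (((d : GQ) * (γ v')⁻¹ : GQ) : GQ ⧸ fixG ι) = (((γ v)⁻¹ : GQ) : GQ ⧸ fixG ι) := hd
    rw [QuotientGroup.eq] at h2
    -- `u := (d γ'⁻¹)⁻¹ γ⁻¹ ∈ U`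
    have h3 : SamePlace (fixG ι) (q, γ v') (q, γ v) := by
      rw [Count_samePlace_iff]
      refine ⟨_, (fixG ι).inv_mem h2, (d : GQ)⁻¹, (DqP q).inv_mem d.2, ?_⟩
      group
    exact Subtype.ext (IsAt.unique ι (hγ v) (IsAt.of_samePlace ι (hγ v') h3))
  · intro c
    induction c using Quotient.inductionOn' with
    | h c =>
      induction c using QuotientGroup.induction_on with
      | H x =>
        obtain ⟨v, hv⟩ := exists_isAt' ι q x⁻¹
        refine ⟨⟨v, x⁻¹, hv⟩, ?_⟩
        have h1 := IsAt.samePlace ι (hγ ⟨v, x⁻¹, hv⟩) hv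
        rw [Count_samePlace_iff] at h1
        obtain ⟨u, hu, d, hd, h2⟩ := h1
        apply Quotient.eq''.2
        -- `γ⁻¹ U = d • x U`
        refine ⟨⟨d, hd⟩, ?_⟩
        change (((d : GQ) * x : GQ) : GQ ⧸ fixG ι) = (((γ ⟨v, x⁻¹, hv⟩)⁻¹ : GQ) : GQ ⧸ fixG ι)
        rw [QuotientGroup.eq]
        generalize γ ⟨v, x⁻¹, hv⟩ = c at h2 ⊢
        have h4 : (d * x)⁻¹ * c⁻¹ = u := by
          rw [mul_inv_rev, h2]
          group
        rw [h4]
        exact hu

theorem ncard_SK (S : Finset Nat.Primes) : (SK S ι).ncard = nPl S (fixG ι) := by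
  classical
  unfold nPl
  induction S using Finset.induction_on with
  | empty =>
    have : SK (∅ : Finset Nat.Primes) ι = ∅ := by
      ext v
      simp [SK]
    rw [this]
    simp
  | insert a S ha ih =>
    have hU : SK (insert a S) ι = {v : Pl K | ∃ g : GQ, IsAt ι v a g} ∪ SK S ι := by
      ext v
      simp only [SK, Set.mem_ofPred_eq, Finset.mem_insert, Set.mem_union]
      constructor
      · rintro ⟨q, rfl | hq, g, hg⟩
        · exact Or.inl ⟨g, hg⟩
        · exact Or.inr ⟨q, hq, g, hg⟩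
      · rintro (⟨g, hg⟩ | ⟨q, hq, g, hg⟩)
        · exact ⟨a, Or.inl rfl, g, hg⟩
        · exact ⟨q, Or.inr hq, g, hg⟩
    have hd : Disjoint {v : Pl K | ∃ g : GQ, IsAt ι v a g} (SK S ι) := by
      rw [Set.disjoint_left]
      rintro v ⟨g, hg⟩ ⟨q, hq, g', hg'⟩
      have := IsAt.prime_unique hg hg'
      subst this
      exact ha hq
    rw [hU, Set.ncard_union_eq hd (Count_finite_setOf_isAt ι a) (finite_SK ι S), ih,
      Finset.sum_insert ha, ncard_setOf_isAt]

end Fermat.Agent.S55.B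

end
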