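import Fermat.Agent.S55.B.Idx1
import Fermat.Agent.S55.G.Units

/-!
# S55/B-Idx2 : (IDX)  `dim ker (div mod p outside Sg) = dim Cl_{Sg}(K)/p + r₂ + #Sg`  (`μ_p ⊂ K`, `p` odd).

`Sg` finite.  `G.exists_good`: `T ⊇ Sg` finite and good.  `A = EE p K T`: finite dimensional, `2 dim A = [K:ℚ] + 2 #T` (`G.finrank_EE`).
`J = {v // v ∈ T ∧ v ∉ Sg}` (finite, `#J = #T - #Sg`), `r : KP p K →ₗ (J → 𝔽_p)`, `r ξ j = ordp j ξ`.
(1) `ker (divp Sg) = A ⊓ ker r` (as subspaces of `KP p K`): `mem_EE_iff`.   So `dim ker divp = dim A - dim r(A)` (rank-nullity for `r|_A`).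
(2) `e : (J → 𝔽_p) →ₗ Q = (functions on {v ∉ Sg}) ⧸ range (divp Sg)`, extension by zero followed by `mkQ`.
    `range e = DivCl`: `≤` clear (finite support); `≥`: for `f ∈ DivFin`, `exists_ordp_eq` gives `ξ` with `ordp v ξ = f v` for `v ∉ T`; `f - divp ξ` is
    supported in `J`.
    `ker e = r(A)`: if `ext f = divp ξ` then `ordp v ξ = 0` for `v ∉ T`, so `ξ ∈ A` (`mem_EE_iff`) and `f = r ξ`; conversely for `ξ ∈ A`, `divp ξ = ext (r ξ)`.
    So `dim DivCl = #J - dim r(A)`.
(3) `2 dim ker divp = 2 dim A - 2 dim r(A) = [K:ℚ] + 2 #T - 2 #J + 2 dim DivCl = [K:ℚ] + 2 #Sg + 2 dim DivCl`.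
-/

set_option autoImplicit false

open IsDedekindDomain NumberField Module

noncomputable section

namespace Fermat.Agent.S55.B

open G

/-- the abstract linear algebra behind (IDX). -/
theorem Idx2.abstract {k V I : Type*} [Field k] [AddCommGroup V] [Module k V]
    (d : V →ₗ[k] (I → k)) (J : Set I) [Finite J] (A : Submodule k V) [FiniteDimensional k A]
    (D : Submodule k (I → k)) (hD : ∀ f : I → k, f ∈ D ↔ (Function.support f).Finite)
    (hA : ∀ ξ : V, ξ ∈ A ↔ ∀ i ∉ J, d ξ i = 0)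
    (hB : ∀ f : I → k, (Function.support f).Finite → ∃ ξ : V, ∀ i ∉ J, d ξ i = f i) :
    FiniteDimensional k ↥(LinearMap.ker d) ∧
    FiniteDimensional k ↥(D.map (LinearMap.range d).mkQ) ∧
    finrank k ↥(LinearMap.ker d) + Nat.card J =
      finrank k A + finrank k ↥(D.map (LinearMap.range d).mkQ) := by
  classical
  have : Fintype J := Fintype.ofFinite J
  let ext : (J → k) →ₗ[k] (I → k) := Function.ExtendByZero.linearMap k (Subtype.val : J → I)
  let res : (I → k) →ₗ[k] (J → k) := LinearMap.funLeft k k (Subtype.val : J → I)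
  have ext_in : ∀ (f : J → k) (j : J), ext f j.1 = f j := fun f j =>
    Subtype.val_injective.extend_apply f 0 j
  have ext_out : ∀ (f : J → k) (i : I), i ∉ J → ext f i = 0 := fun f i hi =>
    Function.extend_apply' (f := (Subtype.val : J → I)) f (0 : I → k) i
      (by rintro ⟨j, rfl⟩; exact hi j.2)
  have res_ext : ∀ f : J → k, res (ext f) = f := fun f => funext fun j => ext_in f j
  have ext_res : ∀ g : I → k, (∀ i ∉ J, g i = 0) → ext (res g) = g := by
    intro g hg
    funext i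
    by_cases hi : i ∈ J
    · exact ext_in (res g) ⟨i, hi⟩
    · rw [ext_out _ i hi, hg i hi]
  let r : A →ₗ[k] (J → k) := res ∘ₗ d ∘ₗ A.subtype
  let e : (J → k) →ₗ[k] ((I → k) ⧸ LinearMap.range d) := (LinearMap.range d).mkQ ∘ₗ ext
  have hker_le : LinearMap.ker d ≤ A := by
    intro ξ hξ
    rw [LinearMap.mem_ker] at hξ
    rw [hA]
    intro i _
    rw [hξ]; rfl
  have h1 : LinearMap.ker r = (LinearMap.ker d).comap A.subtype := by
    ext ξ
    rw [LinearMap.mem_ker, Submodule.mem_comap, LinearMap.mem_ker]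
    constructor
    · intro h
      have h' : ext (res (d ξ.1)) = d ξ.1 := ext_res _ ((hA ξ.1).1 ξ.2)
      have h'' : res (d ξ.1) = 0 := h
      rw [h'', map_zero] at h'
      exact h'.symm
    · intro h
      change res (d ξ.1) = 0
      have h' : d ξ.1 = 0 := h
      rw [h', map_zero]
  have h2 : LinearMap.ker e = LinearMap.range r := by
    ext f
    rw [LinearMap.mem_ker, LinearMap.mem_range]
    change (LinearMap.range d).mkQ (ext f) = 0 ↔ _
    rw [Submodule.mkQ_apply, Submodule.Quotient.mk_eq_zero, LinearMap.mem_range]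
    constructor
    · rintro ⟨ξ, hξ⟩
      refine ⟨⟨ξ, (hA ξ).2 fun i hi => by rw [hξ, ext_out f i hi]⟩, ?_⟩
      change res (d ξ) = f
      rw [hξ, res_ext]
    · rintro ⟨ξ, rfl⟩
      exact ⟨ξ.1, (ext_res _ ((hA ξ.1).1 ξ.2)).symm⟩
  have h3 : LinearMap.range e = D.map (LinearMap.range d).mkQ := by
    apply le_antisymm
    · rintro _ ⟨f, rfl⟩
      refine ⟨ext f, (hD _).2 ?_, rfl⟩
      refine (Set.toFinite J).subset fun i hi => ?_
      by_contra hiJ
      exact hi (ext_out f i hiJ)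
    · rintro _ ⟨g, hg, rfl⟩
      obtain ⟨ξ, hξ⟩ := hB g ((hD g).1 hg)
      refine ⟨res (g - d ξ), ?_⟩
      change (LinearMap.range d).mkQ (ext (res (g - d ξ))) = _
      rw [ext_res _ (fun i hi => by rw [Pi.sub_apply, hξ i hi, sub_self]), map_sub,
        sub_eq_self, Submodule.mkQ_apply, Submodule.Quotient.mk_eq_zero]
      exact ⟨ξ, rfl⟩
  have e1 : ↥(LinearMap.ker r) ≃ₗ[k] ↥(LinearMap.ker d) :=
    (LinearEquiv.ofEq _ _ h1).trans (Submodule.comapSubtypeEquivOfLe hker_le)
  have : FiniteDimensional k ↥(LinearMap.ker d) := e1.finiteDimensional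
  have hfd : FiniteDimensional k ↥(D.map (LinearMap.range d).mkQ) := by
    rw [← h3]; infer_instance
  refine ⟨inferInstance, hfd, ?_⟩
  have r1 := LinearMap.finrank_range_add_finrank_ker r
  have r2 := LinearMap.finrank_range_add_finrank_ker e
  rw [h2, h3, Module.finrank_fintype_fun_eq_card] at r2
  rw [e1.finrank_eq] at r1
  rw [Nat.card_eq_fintype_card]
  omega

variable {p : ℕ} [Fact p.Prime] {K : Type} [Field K] [NumberField K]

theorem idx (hodd : p ≠ 2) (hζ : ∃ ζ : K, IsPrimitiveRoot ζ p) (Sg : Set (Pl K))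
    (hSg : Sg.Finite) :
    FiniteDimensional (ZMod p) ↥(LinearMap.ker (divp p K Sg)) ∧
    FiniteDimensional (ZMod p) ↥(DivCl p K Sg) ∧
    2 * finrank (ZMod p) ↥(LinearMap.ker (divp p K Sg)) =
      2 * finrank (ZMod p) ↥(DivCl p K Sg) + finrank ℚ K + 2 * Sg.ncard := by
  classical
  obtain ⟨T, hST, hTfin, hT⟩ := exists_good p K Sg hSg
  obtain ⟨hfdA, hdimA⟩ := finrank_EE p K hodd hζ T hTfin
  let J : Set {v : Pl K // v ∉ Sg} := {i | i.1 ∈ T}
  have hJimg : Subtype.val '' J = T \ Sg := by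
    ext v
    constructor
    · rintro ⟨i, hi, rfl⟩
      exact ⟨hi, i.2⟩
    · rintro ⟨h1, h2⟩
      exact ⟨⟨v, h2⟩, h1, rfl⟩
  have hJfin : J.Finite := by
    apply Set.Finite.of_finite_image _ Subtype.val_injective.injOn
    rw [hJimg]
    exact hTfin.subset Set.sdiff_subset
  have : Finite J := hJfin
  have hJcard : Nat.card J + Sg.ncard = T.ncard := by
    rw [Nat.card_coe_set_eq, ← Set.ncard_image_of_injective J Subtype.val_injective, hJimg]
    exact Set.ncard_sdiff_add_ncard_of_subset hST hTfin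
  obtain ⟨h1, h2, h3⟩ := Idx2.abstract (divp p K Sg) J (EE p K T) (DivFin p K Sg)
    (fun f => Iff.rfl)
    (fun ξ => by
      rw [mem_EE_iff hT]
      constructor
      · intro h i hi
        exact h i.1 hi
      · intro h v hv
        exact h ⟨v, fun hv' => hv (hST hv')⟩ hv)
    (fun f hf => by
      obtain ⟨ξ, hξ⟩ := exists_ordp_eq (p := p) hT
        (fun v => if h : v ∉ Sg then f ⟨v, h⟩ else 0) (by
          refine (hf.image Subtype.val).subset ?_
          intro v hv
          by_cases h : v ∉ Sg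
          · refine ⟨⟨v, h⟩, ?_, rfl⟩
            simpa [Function.mem_support, h] using hv
          · exact absurd (by simp [h]) hv)
      refine ⟨ξ, fun i hi => ?_⟩
      rw [divp_apply, hξ i.1 hi, dif_pos i.2])
  refine ⟨h1, h2, ?_⟩
  change finrank (ZMod p) ↥(LinearMap.ker (divp p K Sg)) + Nat.card J =
    finrank (ZMod p) (EE p K T) + finrank (ZMod p) ↥(DivCl p K Sg) at h3
  omega

end Fermat.Agent.S55.B

end
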