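import Fermat.Agent.S55.B.RamKer

/-!
# S55/B-N2 : (N2)  `dim ker (H²(U, L_S; μ_p) → H²(U, L_all; μ_p)) ≤ dim Cl_{S}(K)/p`.

Notation `U = fixG ι`, `μ = rsub (mu p) U`, `R = range (divp p K (SK S ι))`, `Q = (functions) ⧸ R`.
1. `𝒴 := C1 (Lall.sub U) ⊓ (C2 ((LS S).sub U)).comap (d1 μ)` (submodule of `U → 𝔽_p`).
   `δ : 𝒴 →ₗ H2 ((LS S).sub U) μ`, `y ↦ H2.mk ⟨d1 μ y, _⟩` (`d2_d1`, `Z2 = ker d2 ⊓ C2`).
   `range δ = KInf S (mu p) U`:  for `x = H2.mk z` (`H2.mk_surjective`), `(Pair.inflS ..).map2 x = H2.mk (z2 z)` (`Pair.map2_mk`),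
   whose underlying function is `z` itself (`Pair.z2_coe`, `Pair.c2_apply`; `f = id`, `φ = id`); it is `0` iff `z = d1 y` with `y` level for
   `Lall.sub U` (`H2.mk_eq_zero_iff`).
2. `γ : 𝒴 →ₗ Q`, `γ = R.mkQ ∘ ram h ∘ 𝒴.subtype`;  `range γ ≤ DivCl p K (SK S ι)` (`ram_mem_DivFin`).
3. `ker γ ≤ ker δ`:  `ram y ∈ R`, `ram y = divp ξ = ram (kumK ξ)` (`ram_kumK`); `y' = y - kumK ξ`: level (`kumK_mem_Z1`), `d1 y' = d1 y`,
   `ram y' = 0`; `isLevel_of_ram_eq_zero`: `y'` is `S`-level; so `d1 y = d1 y' ∈ B2 ((LS S).sub U) μ`, `δ y = 0`.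
4. linear algebra (`finrank_range_le_of_ker_le`): `range δ ≅ 𝒴/ker δ` is a quotient of `𝒴/ker γ ≅ range γ ≤ DivCl`.
-/

set_option autoImplicit false

open IsDedekindDomain NumberField Module

noncomputable section

namespace Fermat.Agent.S55.B

open Places ExtCitation G

theorem finrank_range_le_of_ker_le {k V A B : Type} [Field k] [AddCommGroup V] [Module k V]
    [AddCommGroup A] [Module k A] [AddCommGroup B] [Module k B] (f : V →ₗ[k] A) (g : V →ₗ[k] B)
    (hk : LinearMap.ker g ≤ LinearMap.ker f) (W : Submodule k B) [FiniteDimensional k W]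
    (hW : LinearMap.range g ≤ W) :
    FiniteDimensional k (LinearMap.range f) ∧ finrank k (LinearMap.range f) ≤ finrank k W := by
  haveI : FiniteDimensional k (LinearMap.range g) := Submodule.finiteDimensional_of_le hW
  have hker : LinearMap.ker g.rangeRestrict ≤ LinearMap.ker f.rangeRestrict := by
    rw [LinearMap.ker_rangeRestrict, LinearMap.ker_rangeRestrict]
    exact hk
  obtain ⟨δ, hδ⟩ := LES.exists_factor g.rangeRestrict g.surjective_rangeRestrict
    f.rangeRestrict hker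
  have hsurj : Function.Surjective δ := by
    intro y
    obtain ⟨x, rfl⟩ := f.surjective_rangeRestrict y
    exact ⟨g.rangeRestrict x, hδ x⟩
  haveI : FiniteDimensional k (LinearMap.range f) := Module.Finite.of_surjective δ hsurj
  refine ⟨inferInstance, ?_⟩
  calc finrank k (LinearMap.range f) = finrank k (LinearMap.range δ) := by
        rw [LinearMap.range_eq_top.2 hsurj, finrank_top]
    _ ≤ finrank k (LinearMap.range g) := δ.finrank_range_le
    _ ≤ finrank k W := Submodule.finrank_mono hW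

section abstract_

variable {k : Type} [CommRing k] {H : Type} [Group H] {X : Type} [AddCommGroup X] [Module k X]

/-- 1-cochains which are level for `L'` and whose coboundary is level for `L`. -/
def N2.Y (L L' : Levels H) (ρ : Representation k H X) : Submodule k (H → X) :=
  C1 k X L' ⊓ (C2 k X L).comap (d1 ρ)

/-- `y ↦ [d1 y]`. -/
def N2.del (L L' : Levels H) (ρ : Representation k H X) : ↥(N2.Y L L' ρ) →ₗ[k] H2 L ρ :=
  (H2.mk L ρ) ∘ₗ LinearMap.codRestrict (Z2 L ρ) ((d1 ρ) ∘ₗ (N2.Y L L' ρ).subtype)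
    (fun y => ⟨LinearMap.mem_ker.2 (d2_d1 ρ y), y.2.2⟩)

theorem N2.range_del {L L' : Levels H} (h : ∀ U : Subgroup H, L.IsOpen U → L'.IsOpen U)
    (ρ : Representation k H X) :
    LinearMap.range (N2.del L L' ρ) = LinearMap.ker (Fermat.Agent.S55.Pair.infl h ρ).map2 := by
  apply le_antisymm
  · rintro _ ⟨y, rfl⟩
    rw [LinearMap.mem_ker]
    show (Fermat.Agent.S55.Pair.infl h ρ).map2 (H2.mk L ρ _) = 0
    rw [Fermat.Agent.S55.Pair.map2_mk, H2.mk_eq_zero_iff]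
    exact ⟨y, y.2.1, fun g g' => rfl⟩
  · intro x hx
    obtain ⟨z, rfl⟩ := H2.mk_surjective L ρ x
    rw [LinearMap.mem_ker, Fermat.Agent.S55.Pair.map2_mk, H2.mk_eq_zero_iff] at hx
    obtain ⟨y, hy, hyz⟩ := hx
    have hd : d1 ρ y = z := by
      ext ⟨g, g'⟩
      exact (hyz g g').symm
    have hy2 : y ∈ N2.Y L L' ρ := by
      refine ⟨hy, ?_⟩
      show d1 ρ y ∈ C2 k X L
      rw [hd]
      exact z.2.2
    refine ⟨⟨y, hy2⟩, ?_⟩
    show H2.mk L ρ _ = H2.mk L ρ z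
    congr 1
    exact Subtype.ext hd

end abstract_

variable {p : ℕ} [Fact p.Prime] {S : Finset Nat.Primes} {K : Type} [Field K] [NumberField K]
  {ι : K →+* Qbar}

theorem n2 (h : Setup p S ι) (hfin : FiniteDimensional (ZMod p) ↥(DivCl p K (SK S ι))) :
    FiniteDimensional (ZMod p) ↥(KInf S (mu p) (fixG ι)) ∧
      finrank (ZMod p) ↥(KInf S (mu p) (fixG ι)) ≤ finrank (ZMod p) ↥(DivCl p K (SK S ι)) := by
  have hK : KInf S (mu p) (fixG ι) =
      LinearMap.range (N2.del ((LS S).sub (fixG ι)) (Lall.sub (fixG ι)) (rsub (mu p) (fixG ι))) :=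
    (N2.range_del _ _).symm
  rw [hK]
  refine finrank_range_le_of_ker_le _
    ((LinearMap.range (divp p K (SK S ι))).mkQ ∘ₗ ram h ∘ₗ
      (N2.Y ((LS S).sub (fixG ι)) (Lall.sub (fixG ι)) (rsub (mu p) (fixG ι))).subtype) ?_
    (DivCl p K (SK S ι)) ?_
  · intro y hy
    rw [LinearMap.mem_ker] at hy ⊢
    have hy1 : ram h (y : ↥(fixG ι) → ZMod p) ∈ LinearMap.range (divp p K (SK S ι)) :=
      (Submodule.Quotient.mk_eq_zero _).1 hy
    obtain ⟨ξ, hξ⟩ := hy1
    have hkZ := kumK_mem_Z1 h ξ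
    have hlev : (Lall.sub (fixG ι)).IsLevel₁ ((y : ↥(fixG ι) → ZMod p) - kumK h ξ) :=
      (C1 (ZMod p) (ZMod p) (Lall.sub (fixG ι))).sub_mem y.2.1 hkZ.2
    have hd : d1 (rsub (mu p) (fixG ι)) ((y : ↥(fixG ι) → ZMod p) - kumK h ξ) =
        d1 (rsub (mu p) (fixG ι)) (y : ↥(fixG ι) → ZMod p) := by
      rw [map_sub, LinearMap.mem_ker.1 hkZ.1, sub_zero]
    have hr : ram h ((y : ↥(fixG ι) → ZMod p) - kumK h ξ) = 0 := by
      rw [map_sub, ram_kumK, hξ, sub_self]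
    have hS := isLevel_of_ram_eq_zero h hlev (by rw [hd]; exact y.2.2) hr
    show H2.mk ((LS S).sub (fixG ι)) (rsub (mu p) (fixG ι)) _ = 0
    rw [H2.mk_eq_zero_iff]
    refine ⟨_, hS, fun g g' => ?_⟩
    exact (congrFun hd (g, g')).symm
  · rintro _ ⟨y, rfl⟩
    exact Submodule.mem_map_of_mem (ram_mem_DivFin h y.2.1)

end Fermat.Agent.S55.B

end
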