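import Fermat.Agent.S55.B.UR

/-!
# S55/B-Sha : `Ш²_S(U) ≤ ker (H²(U, L_S; μ_p) → H²(U, L_all; μ_p))`, from (UR) and the Hasse principle.
-/

set_option autoImplicit false

noncomputable section

namespace Fermat.Agent.S55.B

open Places ExtCitation G

variable (p : ℕ) [Fact p.Prime] {S : Finset Nat.Primes}

/-- `S`-level classes are locally trivial outside `S`
(`H2.exists_normalised`, `UR`, `H2.mk_eq_zero_iff`, `isLevel₁_of_isOpenIn`, `mu_apply_of_mem_ker`; unfold
`Pair.locS`, `Pair.map2` on `H2.mk`: see `Coh/Func.lean`). -/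
theorem locS_eq_zero_of_not_mem {q : Nat.Primes} (hq : q ∉ S) (g : GQ) {U : Subgroup GQ}
    (hU : (LS S).IsOpen U) (hω : U ≤ (cycloChar p).ker)
    (x : H2 ((LS S).sub U) (rsub (mu p) U)) :
    (Pair.locS S (mu p) (inf_le_right : Dg q g ⊓ U ≤ U)).map2 x = 0 := by
  obtain ⟨z, rfl, hz1, -⟩ := H2.exists_normalised x
  obtain ⟨N', y, hN', -, hy, -, hzy⟩ := UR p hq g hU hω z.1 z.2 (hz1 1)
  rw [Pair.map2_mk, H2.mk_eq_zero_iff]
  refine ⟨y, isLevel₁_of_isOpenIn hN' hy, fun a b => ?_⟩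
  have h1 : rsub (mu p) (Dg q g ⊓ U) a (y b) = y b := mu_apply_of_mem_ker p (hω a.2.2) _
  rw [h1]
  exact hzy a b

/-- a class of `Ш²_S(U)` is locally trivial everywhere after inflation (`Pair.map2_comp`). -/
theorem isLocTriv_of_mem_ShaU {U : Subgroup GQ} (hU : (LS S).IsOpen U)
    (hω : U ≤ (cycloChar p).ker) {x : H2 ((LS S).sub U) (rsub (mu p) U)}
    (hx : x ∈ ShaU S (mu p) U) : IsLocTriv (mu p) U ((Pair.inflS S (mu p) U).map2 x) := by
  intro q g
  have key : (Pair.locS S (mu p) (inf_le_right : Dg q g ⊓ U ≤ U)).map2 x = 0 := by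
    by_cases hq : q ∈ S
    · have h := hx
      simp only [ShaU, Submodule.mem_iInf, LinearMap.mem_ker] at h
      exact h q hq g
    · exact locS_eq_zero_of_not_mem p hq g hU hω x
  rw [Pair.locS, Pair.map2_comp] at key
  exact key

theorem ShaU_le_KInf (hH : HasseHyp p) {U : Subgroup GQ} (hU : (LS S).IsOpen U)
    (hω : U ≤ (cycloChar p).ker) : ShaU S (mu p) U ≤ KInf S (mu p) U := by
  intro x hx
  rw [KInf, LinearMap.mem_ker]
  exact hH U (LS_le_Lall U hU) _ (isLocTriv_of_mem_ShaU p hU hω hx)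

end Fermat.Agent.S55.B

end
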