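import Fermat.Agent.S55.B.N1
import Fermat.Agent.S55.B.N2
import Fermat.Agent.S55.B.Idx2
import Fermat.Agent.S55.B.Count
import Fermat.Agent.S55.B.Sha
import Fermat.Agent.S55.B.Hasse
import Fermat.Agent.S55.L.BridgeNorm

/-!
# S55 (B): (NUM) the numerical output of (UR), (N1), (N2), (IDX).   INTERFACE, statement FROZEN.
Assembled from `B/N1.lean`, `B/N2.lean`, `B/Idx2.lean`, `B/Count.lean`, `B/Sha.lean`, `B/Hasse.lean`.
-/

set_option autoImplicit false

noncomputable section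

namespace Fermat.Agent.S55.B

open Places ExtCitation G Module

variable {p : ℕ} [Fact p.Prime]

theorem hasseHyp (hp2 : p ≠ 2) : HasseHyp p :=
  fun U hU x hx => hasse_principle (localNormIndexFix p) hp2 U hU x hx

/-- (NUM) for a model `(K, ι)`. -/
theorem num_model (hp2 : p ≠ 2) (S : Finset Nat.Primes) {K : Type} [Field K] [NumberField K]
    (ι : K →+* Qbar) (h : Setup p S ι) :
    FiniteDimensional (ZMod p) (H1 ((LS S).sub (fixG ι)) (rsub (mu p) (fixG ι))) ∧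
    FiniteDimensional (ZMod p) ↥(ShaU S (mu p) (fixG ι)) ∧
    2 * (finrank (ZMod p) ↥(ShaU S (mu p) (fixG ι)) + nPl S (fixG ι)) + (fixG ι).index ≤
      2 * finrank (ZMod p) (H1 ((LS S).sub (fixG ι)) (rsub (mu p) (fixG ι))) := by
  obtain ⟨f1, f2, hidx⟩ := idx hp2 (exists_zeta_of_le ι h.hω) (SK S ι) (finite_SK ι S)
  obtain ⟨e⟩ := n1 h
  obtain ⟨f3, hn2⟩ := n2 h f2
  have hle : ShaU S (mu p) (fixG ι) ≤ KInf S (mu p) (fixG ι) :=
    ShaU_le_KInf p (hasseHyp hp2) h.hS h.hω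
  have f4 : FiniteDimensional (ZMod p) ↥(ShaU S (mu p) (fixG ι)) :=
    Submodule.finiteDimensional_of_le hle
  have hsha : finrank (ZMod p) ↥(ShaU S (mu p) (fixG ι)) ≤
      finrank (ZMod p) ↥(KInf S (mu p) (fixG ι)) := Submodule.finrank_mono hle
  refine ⟨LinearEquiv.finiteDimensional e, f4, ?_⟩
  rw [← LinearEquiv.finrank_eq e, hidx, ← ncard_SK, index_fixG]
  omega

/-- (NUM): `h¹(U, L_S; μ_p) ≥ #S_K + r₂ + dim Ш²_S(U)`, `K = Fix U ⊇ μ_p`. -/
theorem num (hp2 : p ≠ 2) (S : Finset Nat.Primes) (hpS : pPrime p ∈ S) (U : Subgroup GQ)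
    (hU : (LS S).IsOpen U) (hω : U ≤ (cycloChar p).ker) :
    FiniteDimensional (ZMod p) (H1 ((LS S).sub U) (rsub (mu p) U)) ∧
    FiniteDimensional (ZMod p) ↥(ShaU S (mu p) U) ∧
    2 * (finrank (ZMod p) ↥(ShaU S (mu p) U) + nPl S U) + U.index ≤
      2 * finrank (ZMod p) (H1 ((LS S).sub U) (rsub (mu p) U)) := by
  obtain ⟨K, _, _, ι, rfl⟩ := exists_model1 (LS_le_Lall U hU)
  exact num_model hp2 S ι ⟨hpS, hU, hω⟩

end Fermat.Agent.S55.B

end
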