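import Fermat.Agent.S55.B.Setup
import Fermat.Agent.S55.G.BridgeTools
import Fermat.Agent.S55.Places.Transitive
import Fermat.Agent.S55.Places.Unram

/-!
# S55/B-BasicIg : API for the conjugated inertia groups `Ig q g = g I_q g⁻¹` (`B/Defs.lean`), and the
conjugated forms of P10 (`Places.map_root_eq_of_mem_Iq'`), P14b (`Places.exists_nrm_pow_of_root_fixed`),
P15 (`Places.exists_finset_unramified`).

All proofs: unfold `Ig`, `G.Dg`, `G.nrmg` (`G.nrmg_def`, `G.mem_Dg_iff` in `G/BridgeTools.lean`) and conjugate: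
`τ ∈ Ig q g ↔ g⁻¹ τ g ∈ I_q`, `nrmg q g x = nrm q (g⁻¹ x)`, `x ∈ Fix (g W g⁻¹) ↔ g⁻¹ x ∈ Fix W`
(`Places.Fix_conj`), `IsOpenIn.conj`.  `I_q ≤ D_q`, `I_q` normal in `D_q`: `Places/Norm.lean` (`mem_Iq_iff`, ...),
`Arith/Defs.lean` (`mem_inertia_iff`, `conj_mem_inertia_smul`), `Places/Transitive.lean`
(`mem_inertia_smul_iff`).  Use `haveI : Fact (q : ℕ).Prime := ⟨q.2⟩`.
-/

set_option autoImplicit false

open scoped Pointwise

noncomputable section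

namespace Fermat.Agent.S55.B

open Places ExtCitation G

variable (q : Nat.Primes) (g : GQ)

theorem mem_Ig_iff {x : GQ} : x ∈ Ig q g ↔ g⁻¹ * x * g ∈ @Iq (q : ℕ) ⟨q.2⟩ := by
  have : Fact (q : ℕ).Prime := ⟨q.2⟩
  unfold Ig
  rw [Subgroup.mem_map]
  constructor
  · rintro ⟨d, hd, rfl⟩
    simpa [MulAut.conj_apply, mul_assoc] using hd
  · intro h
    exact ⟨_, h, by simp [MulAut.conj_apply, mul_assoc]⟩

theorem Ig_eq_inertia :
    Ig q g = (g • @padicPlace (q : ℕ) ⟨q.2⟩).inertiaSubgroupIn ℚ := by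
  ext x
  rw [mem_Ig_iff, mem_inertia_smul_iff]
  rfl

theorem Ig_le_Dg : Ig q g ≤ Dg q g := by
  have : Fact (q : ℕ).Prime := ⟨q.2⟩
  intro x hx
  rw [mem_Ig_iff] at hx
  rw [mem_Dg_iff]
  exact Iq_le_Dq (q : ℕ) hx

/-- `h (g I g⁻¹) h⁻¹ = (hg) I (hg)⁻¹` -/
theorem conj_mem_Ig_iff (h x : GQ) : h * x * h⁻¹ ∈ Ig q (h * g) ↔ x ∈ Ig q g := by
  rw [mem_Ig_iff, mem_Ig_iff]
  have e : (h * g)⁻¹ * (h * x * h⁻¹) * (h * g) = g⁻¹ * x * g := by group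
  rw [e]

theorem conj_mem_Dg_iff (h x : GQ) : h * x * h⁻¹ ∈ Dg q (h * g) ↔ x ∈ Dg q g := by
  rw [mem_Dg_iff, mem_Dg_iff]
  have e : (h * g)⁻¹ * (h * x * h⁻¹) * (h * g) = g⁻¹ * x * g := by group
  rw [e]

/-- `Ig q (g d) = Ig q g` for `d ∈ D_q` -/
theorem Ig_mul_of_mem {d : GQ} (hd : d ∈ @Dq (q : ℕ) ⟨q.2⟩) : Ig q (g * d) = Ig q g := by
  have : Fact (q : ℕ).Prime := ⟨q.2⟩
  ext x
  rw [mem_Ig_iff, mem_Ig_iff]
  constructor
  · intro h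
    have h1 := Iq_conj_mem (q : ℕ) hd h
    have e : d * ((g * d)⁻¹ * x * (g * d)) * d⁻¹ = g⁻¹ * x * g := by group
    rwa [e] at h1
  · intro h
    have h1 := Iq_conj_mem (q : ℕ) ((Dq (q : ℕ)).inv_mem hd) h
    have e : d⁻¹ * (g⁻¹ * x * g) * d⁻¹⁻¹ = (g * d)⁻¹ * x * (g * d) := by group
    rwa [e] at h1

theorem Dg_mul_of_mem {d : GQ} (hd : d ∈ @Dq (q : ℕ) ⟨q.2⟩) : Dg q (g * d) = Dg q g := by
  have : Fact (q : ℕ).Prime := ⟨q.2⟩
  ext x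
  rw [mem_Dg_iff, mem_Dg_iff]
  constructor
  · intro h
    have h1 := (Dq (q : ℕ)).mul_mem ((Dq (q : ℕ)).mul_mem hd h) ((Dq (q : ℕ)).inv_mem hd)
    have e : d * ((g * d)⁻¹ * x * (g * d)) * d⁻¹ = g⁻¹ * x * g := by group
    rwa [e] at h1
  · intro h
    have h1 := (Dq (q : ℕ)).mul_mem ((Dq (q : ℕ)).mul_mem ((Dq (q : ℕ)).inv_mem hd) h) hd
    have e : d⁻¹ * (g⁻¹ * x * g) * d = (g * d)⁻¹ * x * (g * d) := by group
    rwa [e] at h1

/-- two places of `Qbar` over the same place of `Fix U` have `U`-conjugate inertia groups: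
`j.2 = u d i.2`, `d ∈ Dg i`, so `j.2 = u i.2 d₀`, `d₀ ∈ D_q`. -/
theorem exists_conj_Ig_of_samePlace {U : Subgroup GQ} {i j : Nat.Primes × GQ}
    (h : SamePlace U i j) :
    ∃ u ∈ U, ∀ τ : GQ, τ ∈ Ig i.1 i.2 ↔ u * τ * u⁻¹ ∈ Ig j.1 j.2 := by
  obtain ⟨i1, i2⟩ := i
  obtain ⟨j1, j2⟩ := j
  obtain ⟨h1, u, hu, d, hd, h2⟩ := h
  simp only at h1 hd h2 ⊢
  subst h1
  refine ⟨u, hu, fun τ => ?_⟩
  have hd0 := (mem_Dg_iff i1 i2).1 hd
  have e : j2 = (u * i2) * (i2⁻¹ * d * i2) := by rw [h2]; group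
  rw [e, Ig_mul_of_mem i1 (u * i2) hd0, conj_mem_Ig_iff]

variable {q g}

/-- **P10** at the place `(q,g)`. -/
theorem map_root_of_mem_Ig {n : ℕ} (hn : Nat.Coprime n q) {u c β : Qbar} (hc : c ≠ 0)
    (hu : nrmg q g u = nrmg q g c ^ n) (hβ : β ^ n = u) {τ : GQ} (hτ : τ ∈ Ig q g)
    (hτu : τ u = u) (hτc : τ c = c) : τ β = β := by
  have : Fact (q : ℕ).Prime := ⟨q.2⟩
  have key : ∀ x : Qbar, τ x = x → (g⁻¹ * τ * g) (g⁻¹ x) = g⁻¹ x := by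
    intro x hx
    rw [AlgEquiv.mul_apply, AlgEquiv.mul_apply]
    have e : g (g⁻¹ x) = x := by
      rw [← AlgEquiv.mul_apply, mul_inv_cancel, AlgEquiv.one_apply]
    rw [e, hx]
  have h := map_root_eq_of_mem_Iq' (q := (q : ℕ)) hn (u := g⁻¹ u) (c := g⁻¹ c) (β := g⁻¹ β)
    (by rw [Ne, map_eq_zero_iff _ (g⁻¹ : GQ).injective]; exact hc)
    (by rw [← nrmg_def, ← nrmg_def]; exact hu) (by rw [← map_pow, hβ])
    ((mem_Ig_iff q g).1 hτ) (key u hτu) (key c hτc)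
  rw [AlgEquiv.mul_apply, AlgEquiv.mul_apply] at h
  have e : g (g⁻¹ β) = β := by
    rw [← AlgEquiv.mul_apply, mul_inv_cancel, AlgEquiv.one_apply]
  rw [e] at h
  exact (g⁻¹ : GQ).injective h

/-- **P14b** at the place `(q,g)`: if the inertia group of `Fix U` at `(q,g)` fixes an `n`-th root of
`b ∈ Fix (Dg q g ⊓ U)`, then `|b|` is an `n`-th power in the value group of `Fix (Dg q g ⊓ U)`. -/
theorem exists_nrmg_pow_of_root_fixed {U : Subgroup GQ} (hU : Lall.IsOpen U) {n : ℕ} {b β : Qbar}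
    (hb : b ∈ Places.Fix (Dg q g ⊓ U)) (hβ : β ^ n = b) (hfix : ∀ τ ∈ Ig q g ⊓ U, τ β = β) :
    ∃ y ∈ Places.Fix (Dg q g ⊓ U), nrmg q g b = nrmg q g y ^ n := by
  have : Fact (q : ℕ).Prime := ⟨q.2⟩
  obtain ⟨E, hE, hEU⟩ := Lall_isOpen_iff.1 hU
  have hopen : IsOpenIn (Dg q g) (Dg q g ⊓ U) := ⟨inf_le_left, E, hE, inf_le_inf_left _ hEU⟩
  have hD : (Dg q g).map (MulAut.conj g⁻¹).toMonoidHom = Dq (q : ℕ) := by
    ext x
    rw [Subgroup.mem_map]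
    constructor
    · rintro ⟨d, hd, rfl⟩
      have := (mem_Dg_iff q g).1 hd
      simpa [MulAut.conj_apply] using this
    · intro hx
      refine ⟨g * x * g⁻¹, (mem_Dg_iff q g).2 ?_, ?_⟩
      · have e : g⁻¹ * (g * x * g⁻¹) * g = x := by group
        rw [e]; exact hx
      · simp [mul_assoc]
  have hW := hopen.conj g⁻¹
  rw [hD] at hW
  have egg : ∀ x : Qbar, g (g⁻¹ x) = x := by
    intro x
    rw [← AlgEquiv.mul_apply, mul_inv_cancel, AlgEquiv.one_apply]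
  obtain ⟨y, hy, hyb⟩ := exists_nrm_pow_of_root_fixed (q := (q : ℕ)) hW (n := n) (b := g⁻¹ b)
    (β := g⁻¹ β) (by rw [Fix_conj, inv_inv, egg]; exact hb) (by rw [← map_pow, hβ]) (by
      rintro _ ⟨⟨w, hw, rfl⟩, hI⟩
      have hI' : g⁻¹ * w * g ∈ Iq (q : ℕ) := by
        simpa [MulAut.conj_apply] using hI
      have h1 := hfix w ⟨(mem_Ig_iff q g).2 hI', hw.2⟩
      show (g⁻¹ * w * g⁻¹⁻¹) (g⁻¹ β) = g⁻¹ β
      rw [inv_inv, AlgEquiv.mul_apply, AlgEquiv.mul_apply, egg, h1])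
  refine ⟨g y, ?_, ?_⟩
  · rw [Fix_conj, inv_inv] at hy
    exact hy
  · rw [nrmg_def, nrmg_def, hyb]
    congr 2
    rw [← AlgEquiv.mul_apply, inv_mul_cancel, AlgEquiv.one_apply]

/-- **P15**: an open subgroup contains almost all inertia groups. -/
theorem exists_finset_Ig_le {N : Subgroup GQ} (hN : Lall.IsOpen N) :
    ∃ T : Finset Nat.Primes, ∀ l : Nat.Primes, l ∉ T → ∀ g : GQ, Ig l g ≤ N := by
  obtain ⟨E, hE, hEN⟩ := Lall_isOpen_iff.1 hN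
  obtain ⟨T, hT⟩ := exists_finset_unramified E
  refine ⟨(Finset.subtype Nat.Prime T : Finset {n : ℕ // n.Prime}), fun l hl g x hx => hEN ?_⟩
  have : Fact (l : ℕ).Prime := ⟨l.2⟩
  have hl' : (l : ℕ) ∉ T := fun h => hl (Finset.mem_subtype.2 h)
  have h1 := hT (l : ℕ) hl' g _ ((mem_Ig_iff l g).1 hx)
  have e : g * (g⁻¹ * x * g) * g⁻¹ = x := by group
  rwa [e] at h1

end Fermat.Agent.S55.B

end
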