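import Fermat.Agent.S55.Arith.Kummer
import Fermat.Agent.S55.G.BridgeDefs
import Fermat.Agent.S55.Z.ArithDatum

/-!
# S55 (B): base numerics -- definitions  (sorry-free, FROZEN)

Conventions.  `GQ = Gal(Qbar/ℚ)`; the places of `Qbar` over a prime `q` are the `g • padicPlace q`,
with decomposition group `G.Dg q g = g D_q g⁻¹`, inertia group `B.Ig q g = g I_q g⁻¹`, absolute value
`G.nrmg q g`.  A number field is an abstract `K` with an embedding `ι : K →+* Qbar` (as in `G/Bridge*`),
its group is `G.fixG ι`; `G.IsAt ι v q g` : the place `v` of `K` is induced by `g • padicPlace q`.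
-/

set_option autoImplicit false

open IsDedekindDomain NumberField

noncomputable section

namespace Fermat.Agent.S55.B

open Places ExtCitation G

variable {k : Type} [CommRing k] {X : Type} [AddCommGroup X] [Module k X]

/-- inflation from the `S`-levels to all levels, on a subgroup `U`. -/
def Pair.inflS (S : Finset Nat.Primes) (ρ : Representation k GQ X) (U : Subgroup GQ) :
    Pair ((LS S).sub U) (rsub ρ U) (Lall.sub U) (rsub ρ U) :=
  Pair.infl (L := (LS S).sub U) (L' := Lall.sub U)
    (fun _ h => h.elim fun V0 h0 => ⟨V0, LS_le_Lall V0 h0.1, h0.2⟩) (rsub ρ U)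

/-- localisation `(U, L_S) → (W, L_all)` for `W ≤ U`. -/
def Pair.locS (S : Finset Nat.Primes) (ρ : Representation k GQ X) {W U : Subgroup GQ}
    (h : W ≤ U) : Pair ((LS S).sub U) (rsub ρ U) (Lall.sub W) (rsub ρ W) :=
  (Pair.resLE Lall ρ h).comp (Pair.inflS S ρ U)

/-- `g I_q g⁻¹`: the inertia group of the place `g • padicPlace q`. -/
def Ig (q : Nat.Primes) (g : GQ) : Subgroup GQ :=
  haveI : Fact (q : ℕ).Prime := ⟨q.2⟩
  (Iq (q : ℕ)).map (MulAut.conj g).toMonoidHom

/-- a class of `H²(U, L_all; ρ)` is locally trivial at all finite places. -/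
def IsLocTriv (ρ : Representation k GQ X) (U : Subgroup GQ) (x : H2 (Lall.sub U) (rsub ρ U)) :
    Prop :=
  ∀ (q : Nat.Primes) (g : GQ), (Pair.resLE Lall ρ (inf_le_right : Dg q g ⊓ U ≤ U)).map2 x = 0

/-- `Ш²_S(U, ρ)`: classes of `H²(U, L_S; ρ)` which are trivial at all places over `S`. -/
def ShaU (S : Finset Nat.Primes) (ρ : Representation k GQ X) (U : Subgroup GQ) :
    Submodule k (H2 ((LS S).sub U) (rsub ρ U)) :=
  ⨅ (q : Nat.Primes) (_ : q ∈ S) (g : GQ),
    LinearMap.ker (Pair.locS S ρ (inf_le_right : Dg q g ⊓ U ≤ U)).map2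

/-- the kernel of the inflation `H²(U, L_S) → H²(U, L_all)`. -/
def KInf (S : Finset Nat.Primes) (ρ : Representation k GQ X) (U : Subgroup GQ) :
    Submodule k (H2 ((LS S).sub U) (rsub ρ U)) :=
  LinearMap.ker (Pair.inflS S ρ U).map2

/-- the number of places of `Fix U` over `S`: `∑_{q ∈ S} #(D_q \ GQ / U)`. -/
def nPl (S : Finset Nat.Primes) (U : Subgroup GQ) : ℕ :=
  ∑ q ∈ S, Nat.card (MulAction.orbitRel.Quotient ↥(DqP q) (GQ ⧸ U))

/-- the Hasse principle (G8) for `H²(U; μ_p)`, `U` open. -/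
def HasseHyp (p : ℕ) [Fact p.Prime] : Prop :=
  ∀ U : Subgroup GQ, Lall.IsOpen U → ∀ x : H2 (Lall.sub U) (rsub (mu p) U),
    IsLocTriv (mu p) U x → x = 0

section places

variable (p : ℕ) [Fact p.Prime] (K : Type) [Field K] [NumberField K]

/-- `x ↦ ord_v x mod p` on `K^×`. -/
def ordHom (v : Pl K) : Kˣ →* Multiplicative (ZMod p) :=
  (AddMonoidHom.toMultiplicative (Int.castAddHom (ZMod p))).comp
    ((v.valuationOfNeZero (K := K))⁻¹)

/-- `ord_v mod p` as a linear form on `K^×/p`. -/
def ordp (v : Pl K) : KP p K →ₗ[ZMod p] ZMod p :=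
  AddMonoidHom.toZModLinearMap p
    (show KP p K →+ ZMod p from MonoidHom.toAdditiveLeft
      (QuotientGroup.lift (powMonoidHom p : Kˣ →* Kˣ).range (ordHom p K v) (by
        rintro _ ⟨x, rfl⟩
        rw [powMonoidHom_apply, MonoidHom.mem_ker, map_pow]
        apply Multiplicative.toAdd.injective
        rw [toAdd_pow, toAdd_one]
        exact (ZModModule.char_nsmul_eq_zero p _))))

theorem ordp_cls (v : Pl K) (x : Kˣ) :
    ordp p K v (cls p x) = ((- Multiplicative.toAdd (v.valuationOfNeZero x) : ℤ) : ZMod p) :=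
  rfl

/-- the divisor map mod `p` outside a set `Sg` of places. -/
def divp (Sg : Set (Pl K)) : KP p K →ₗ[ZMod p] ({v : Pl K // v ∉ Sg} → ZMod p) :=
  LinearMap.pi fun v => ordp p K v.1

@[simp] theorem divp_apply (Sg : Set (Pl K)) (ξ : KP p K) (v : {v : Pl K // v ∉ Sg}) :
    divp p K Sg ξ v = ordp p K v.1 ξ := rfl

/-- divisors mod `p` outside `Sg`: finitely supported functions. -/
def DivFin (Sg : Set (Pl K)) : Submodule (ZMod p) ({v : Pl K // v ∉ Sg} → ZMod p) where
  carrier := {f | (Function.support f).Finite}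
  add_mem' := fun ha hb => (ha.union hb).subset (Function.support_add _ _)
  zero_mem' := by simp
  smul_mem' := fun c _ hf => hf.subset (Function.support_const_smul_subset c _)

/-- `Cl_{Sg}(K)/p` : divisors mod `p` outside `Sg` modulo principal divisors, as a subspace of
(all functions) / (principal divisors). -/
def DivCl (Sg : Set (Pl K)) :
    Submodule (ZMod p) (({v : Pl K // v ∉ Sg} → ZMod p) ⧸ LinearMap.range (divp p K Sg)) :=
  (DivFin p K Sg).map (LinearMap.range (divp p K Sg)).mkQ

end places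

variable {K : Type} [Field K] [NumberField K]

/-- the places of `K` over the primes of `S`. -/
def SK (S : Finset Nat.Primes) (ι : K →+* Qbar) : Set (Pl K) :=
  {v | ∃ q ∈ S, ∃ g : GQ, IsAt ι v q g}

/-- the element of `K^×` as an element of `Qbar^×`. -/
def toQ (ι : K →+* Qbar) : Kˣ →* Qbarˣ := Units.map (ι : K →* Qbar)

@[simp] theorem coe_toQ (ι : K →+* Qbar) (x : Kˣ) : ((toQ ι x : Qbarˣ) : Qbar) = ι (x : K) := rfl

end Fermat.Agent.S55.B

end
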