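import Fermat.Agent.S55.B.Ord
import Fermat.Agent.S55.G.Good

/-!
# S55/B-Idx1 : consequences of "`T` is `K`-good" (`G.IsGood`, `G/Defs.lean`) for divisors mod `p`.
`T` good: every `v ∉ T` has `x_v ∈ K^×` with `ord_v x_v = 1` and `ord_{v'} x_v = 0` for the other `v' ∉ T`
(translate `v.valuation K x = exp (-1)` / `= 1` by `valuation_eq_exp_neg_ordZ`, `ordZ_eq_zero_iff`).

* `mem_EE_iff`: `⟹` `mem_img`/`mem_unit_iff`, `ordp_cls'`.  `⟸`: `ξ = cls x` (`cls_surjective`), `F = {v ∉ T | ord_v x ≠ 0}` finite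
  (`finite_ordZ_ne_zero`), `x' = x * ∏_{v ∈ F} x_v ^ (- ord_v x)`: `ord_{v'} x' = 0` for all `v' ∉ T` (`ordZ_mul`, `ordZ_prod`, `ordZ_zpow`,
  `Finset.sum_eq_single`), so `x' ∈ T.unit K`; `cls x' = cls x` because `p ∣ ord_v x` (`(ZMod.intCast_zmod_eq_zero_iff_dvd _ _)`), so each
  `x_v ^ (- ord_v x)` is a `p`-th power (`cls_zpow`, `KP_nsmul`).
* `exists_ordp_eq`: `ξ = ∑_{v ∈ supp f, v ∉ T} (f v) • cls x_v`.
-/

set_option autoImplicit false

open IsDedekindDomain NumberField

noncomputable section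

namespace Fermat.Agent.S55.B

open G

variable {p : ℕ} [Fact p.Prime] {K : Type} [Field K] [NumberField K]

theorem Idx1.exists_unif {T : Set (Pl K)} (hT : IsGood p K T) :
    ∃ X : Pl K → Kˣ, ∀ v ∉ T, ordZ v (X v) = 1 ∧ ∀ v' ∉ T, v' ≠ v → ordZ v' (X v) = 0 := by
  classical
  have h : ∀ v : Pl K, ∃ x : Kˣ, v ∉ T → ordZ v x = 1 ∧ ∀ v' ∉ T, v' ≠ v → ordZ v' x = 0 := by
    intro v
    by_cases hv : v ∈ T
    · exact ⟨1, fun h => absurd hv h⟩
    · obtain ⟨x, hx1, hx2⟩ := hT.2 v hv
      refine ⟨x, fun _ => ⟨?_, fun v' hv' hne => (ordZ_eq_zero_iff v' x).mpr (hx2 v' hv' hne)⟩⟩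
      have := valuation_eq_exp_neg_ordZ v x
      rw [hx1, WithZero.exp_inj] at this
      omega
  choose X hX using h
  exact ⟨X, hX⟩

theorem mem_EE_iff {T : Set (Pl K)} (hT : IsGood p K T) (ξ : KP p K) :
    ξ ∈ EE p K T ↔ ∀ v ∉ T, ordp p K v ξ = 0 := by
  classical
  constructor
  · intro h v hv
    obtain ⟨x, hx, rfl⟩ := (mem_img p).1 h
    rw [ordp_cls', (mem_unit_iff T x).1 hx v hv, Int.cast_zero]
  · intro h
    obtain ⟨x, rfl⟩ := cls_surjective p ξ
    obtain ⟨X, hX⟩ := Idx1.exists_unif hT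
    have hdvd : ∀ v ∉ T, (p : ℤ) ∣ ordZ v x := by
      intro v hv
      have := h v hv
      rw [ordp_cls'] at this
      exact (ZMod.intCast_zmod_eq_zero_iff_dvd _ _).1 this
    set F : Finset (Pl K) := (finite_ordZ_ne_zero x).toFinset.filter (· ∉ T) with hF
    have hmemF : ∀ v, v ∈ F ↔ ordZ v x ≠ 0 ∧ v ∉ T := by
      intro v
      simp [hF]
    refine (mem_img p).2 ⟨x * ∏ v ∈ F, X v ^ (- ordZ v x), ?_, ?_⟩
    · rw [mem_unit_iff]
      intro v' hv'
      rw [ordZ_mul, ordZ_prod]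
      simp only [ordZ_zpow]
      by_cases hv'F : v' ∈ F
      · rw [Finset.sum_eq_single v', (hX v' hv').1]
        · ring
        · intro v hv hne
          rw [(hX v ((hmemF v).1 hv).2).2 v' hv' hne.symm, mul_zero]
        · intro h; exact absurd hv'F h
      · have h0 : ordZ v' x = 0 := by
          by_contra hne
          exact hv'F ((hmemF v').2 ⟨hne, hv'⟩)
        rw [h0, zero_add]
        apply Finset.sum_eq_zero
        intro v hv
        have hne : v' ≠ v := fun e => hv'F (e ▸ hv)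
        rw [(hX v ((hmemF v).1 hv).2).2 v' hv' hne, mul_zero]
    · rw [cls_mul]
      have : cls p (∏ v ∈ F, X v ^ (- ordZ v x)) = 0 := by
        have hprod : ∀ s : Finset (Pl K), (∀ v ∈ s, v ∉ T) →
            cls p (∏ v ∈ s, X v ^ (- ordZ v x)) = 0 := by
          intro s
          induction s using Finset.induction_on with
          | empty => intro _; simp
          | insert a s ha ih =>
            intro hs
            rw [Finset.prod_insert ha, cls_mul, ih (fun v hv => hs v (Finset.mem_insert_of_mem hv)),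
              add_zero, cls_zpow]
            obtain ⟨m, hm⟩ := hdvd a (hs a (Finset.mem_insert_self a s))
            rw [hm, ← mul_neg, mul_comm, mul_smul, natCast_zsmul, KP_nsmul, smul_zero]
        exact hprod F (fun v hv => ((hmemF v).1 hv).2)
      rw [this, add_zero]

/-- every finitely supported function on the places outside `T` is a principal divisor mod `p` outside `T`. -/
theorem exists_ordp_eq {T : Set (Pl K)} (hT : IsGood p K T) (f : Pl K → ZMod p)
    (hf : (Function.support f).Finite) : ∃ ξ : KP p K, ∀ v ∉ T, ordp p K v ξ = f v := by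
  classical
  obtain ⟨X, hX⟩ := Idx1.exists_unif hT
  set F : Finset (Pl K) := hf.toFinset.filter (· ∉ T) with hF
  have hmemF : ∀ v, v ∈ F ↔ f v ≠ 0 ∧ v ∉ T := by
    intro v
    simp [hF]
  refine ⟨∑ v ∈ F, f v • cls p (X v), fun v' hv' => ?_⟩
  rw [map_sum]
  simp only [map_smul, ordp_cls', smul_eq_mul]
  by_cases hv'F : v' ∈ F
  · rw [Finset.sum_eq_single v', (hX v' hv').1]
    · simp
    · intro v hv hne
      rw [(hX v ((hmemF v).1 hv).2).2 v' hv' hne.symm]
      simp
    · intro h; exact absurd hv'F h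
  · have h0 : f v' = 0 := by
      by_contra hne
      exact hv'F ((hmemF v').2 ⟨hne, hv'⟩)
    rw [h0]
    apply Finset.sum_eq_zero
    intro v hv
    have hne : v' ≠ v := fun e => hv'F (e ▸ hv)
    rw [(hX v ((hmemF v).1 hv).2).2 v' hv' hne]
    simp

end Fermat.Agent.S55.B

end
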