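import Fermat.Agent.S55.B.Kum
import Fermat.Agent.S55.G.BridgeTools

/-!
# S55/B-KumK : Kummer theory of the number field `K` (`ι : K →+* Qbar`, `U = fixG ι ≤ ker ω`) as a LINEAR map
`kumK : K^×/p → (U → 𝔽_p)`, `cls x ↦ (g ↦ kum p β g)`, `β^p = ι x`.

* `exists_kumK`: choose `β_x` for every `x` (`exists_root`); `x ↦ (g ↦ kum p β_x g)` is a homomorphism
  `K^× → (U → 𝔽_p)` (`kum_mul`, `kum_eq_of_pow_eq`; elements of `U` fix `ι x`) killing `p`-th powers (`β = ι y`
  is fixed by `U`: `kum_eq_zero_iff`); descend to `KP p K` (`QuotientGroup.lift`, `AddMonoidHom.toZModLinearMap`,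
  as in the definition of `ordp` in `B/Defs.lean`).
* injectivity: `kum p β g = 0` for all `g ∈ U` ⟹ `β ∈ Fix U = rangeNF ι` (`G.Fix_fixG`, `G.mem_rangeNF`).
* range: `kum_mem_Z1`, `exists_kum_eq` with `H = U`, and `β^p ∈ Fix U = rangeNF ι`.
-/

set_option autoImplicit false
set_option linter.unusedSectionVars false

open IsDedekindDomain NumberField

noncomputable section

namespace Fermat.Agent.S55.B

open Places ExtCitation G

variable {p : ℕ} [Fact p.Prime] {S : Finset Nat.Primes} {K : Type} [Field K] [NumberField K]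
  {ι : K →+* Qbar}

theorem exists_kumK (h : Setup p S ι) :
    ∃ κ : KP p K →ₗ[ZMod p] (↥(fixG ι) → ZMod p), ∀ (x : Kˣ) (β : Qbarˣ), β ^ p = toQ ι x →
      ∀ g : ↥(fixG ι), κ (cls p x) g = kum p β g := by
  choose β hβ using fun x : Kˣ => exists_root p (toQ ι x)
  have hcoe : ∀ (x : Kˣ) (γ : Qbarˣ), γ ^ p = toQ ι x → (γ : Qbar) ^ p = ι (x : K) := by
    intro x γ hγ
    rw [← Units.val_pow_eq_pow_val, hγ, coe_toQ]
  have hfix : ∀ (x : Kˣ) (γ : Qbarˣ), γ ^ p = toQ ι x → ∀ g : ↥(fixG ι),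
      (g : GQ) ((γ : Qbar) ^ p) = (γ : Qbar) ^ p := by
    intro x γ hγ g
    rw [hcoe x γ hγ]
    exact g.2 x
  have key : ∀ (x : Kˣ) (γ : Qbarˣ), γ ^ p = toQ ι x → ∀ g : ↥(fixG ι),
      kum p (β x) g = kum p γ g := by
    intro x γ hγ g
    exact kum_eq_of_pow_eq p ((hβ x).trans hγ.symm) (h.hω g.2) (hfix x _ (hβ x) g)
  let F : Kˣ →* Multiplicative (↥(fixG ι) → ZMod p) :=
    { toFun := fun x => Multiplicative.ofAdd (fun g => kum p (β x) g)
      map_one' := by
        apply Multiplicative.toAdd.injective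
        funext g
        show kum p (β 1) g = 0
        rw [key 1 1 (by simp) g]
        exact (kum_eq_zero_iff p (by simp)).mpr (by simp)
      map_mul' := by
        intro x y
        apply Multiplicative.toAdd.injective
        funext g
        show kum p (β (x * y)) g = kum p (β x) g + kum p (β y) g
        rw [key (x * y) (β x * β y) (by rw [mul_pow, hβ, hβ, map_mul]) g]
        exact kum_mul p (hfix x _ (hβ x) g) (hfix y _ (hβ y) g) }
  have hF : (powMonoidHom p : Kˣ →* Kˣ).range ≤ F.ker := by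
    rintro _ ⟨y, rfl⟩
    rw [powMonoidHom_apply, MonoidHom.mem_ker]
    apply Multiplicative.toAdd.injective
    funext g
    show kum p (β (y ^ p)) g = 0
    rw [key (y ^ p) (toQ ι y) (by rw [map_pow]) g]
    exact (kum_eq_zero_iff p (hfix (y ^ p) (toQ ι y) (by rw [map_pow]) g)).mpr (g.2 y)
  refine ⟨AddMonoidHom.toZModLinearMap p
    (show KP p K →+ (↥(fixG ι) → ZMod p) from MonoidHom.toAdditiveLeft
      (QuotientGroup.lift (powMonoidHom p : Kˣ →* Kˣ).range F hF)), ?_⟩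
  intro x γ hγ g
  exact key x γ hγ g

/-- the Kummer map of `K`. -/
def kumK (h : Setup p S ι) : KP p K →ₗ[ZMod p] (↥(fixG ι) → ZMod p) :=
  Classical.choose (exists_kumK h)

theorem kumK_cls (h : Setup p S ι) (x : Kˣ) (β : Qbarˣ) (hβ : β ^ p = toQ ι x) (g : ↥(fixG ι)) :
    kumK h (cls p x) g = kum p β g := Classical.choose_spec (exists_kumK h) x β hβ g

theorem kumK_injective (h : Setup p S ι) : Function.Injective (kumK h) := by
  rw [injective_iff_map_eq_zero]
  intro ξ hξ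
  obtain ⟨x, rfl⟩ := cls_surjective p ξ
  obtain ⟨β, hβ⟩ := exists_root p (toQ ι x)
  have hcoe : (β : Qbar) ^ p = ι (x : K) := by
    rw [← Units.val_pow_eq_pow_val, hβ, coe_toQ]
  have hmem : (β : Qbar) ∈ Places.Fix (fixG ι) := by
    rw [IntermediateField.mem_fixedField_iff]
    intro g hg
    have h1 : kum p β g = 0 := by
      rw [← kumK_cls h x β hβ ⟨g, hg⟩, hξ]; rfl
    exact (kum_eq_zero_iff p (by rw [hcoe]; exact hg x)).mp h1
  rw [Fix_fixG, mem_rangeNF] at hmem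
  obtain ⟨y, hy⟩ := hmem
  have hy0 : y ≠ 0 := by
    rintro rfl
    rw [map_zero] at hy
    exact β.ne_zero hy.symm
  rw [cls_eq_zero_iff]
  refine ⟨Units.mk0 y hy0, Units.ext ?_⟩
  apply ι.injective
  rw [Units.val_pow_eq_pow_val, Units.val_mk0, map_pow, hy, hcoe]

theorem range_kumK (h : Setup p S ι) :
    LinearMap.range (kumK h) = Z1 (Lall.sub (fixG ι)) (rsub (mu p) (fixG ι)) := by
  apply le_antisymm
  · rintro _ ⟨ξ, rfl⟩
    obtain ⟨x, rfl⟩ := cls_surjective p ξ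
    obtain ⟨β, hβ⟩ := exists_root p (toQ ι x)
    have hcoe : (β : Qbar) ^ p = ι (x : K) := by
      rw [← Units.val_pow_eq_pow_val, hβ, coe_toQ]
    have e : kumK h (cls p x) = fun g : ↥(fixG ι) => kum p β g := funext (kumK_cls h x β hβ)
    rw [e]
    apply kum_mem_Z1
    rw [Fix_fixG, mem_rangeNF, hcoe]
    exact ⟨_, rfl⟩
  · intro z hz
    obtain ⟨β, hβ, hz'⟩ := exists_kum_eq p hz
    rw [Fix_fixG, mem_rangeNF] at hβ
    obtain ⟨x, hx⟩ := hβ
    have hx0 : x ≠ 0 := by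
      rintro rfl
      rw [map_zero] at hx
      exact pow_ne_zero p β.ne_zero hx.symm
    refine ⟨cls p (Units.mk0 x hx0), funext fun g => ?_⟩
    rw [hz' g]
    refine kumK_cls h _ β (Units.ext ?_) g
    rw [Units.val_pow_eq_pow_val, coe_toQ, Units.val_mk0, hx]

theorem kumK_mem_Z1 (h : Setup p S ι) (ξ : KP p K) :
    kumK h ξ ∈ Z1 (Lall.sub (fixG ι)) (rsub (mu p) (fixG ι)) := by
  rw [← range_kumK h]; exact ⟨ξ, rfl⟩

theorem KumK_mu_apply (h : Setup p S ι) (a : ↥(fixG ι)) (x : ZMod p) :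
    rsub (mu p) (fixG ι) a x = x := by
  show mu p (a : GQ) x = x
  rw [mu_apply, MonoidHom.mem_ker.mp (h.hω a.2), Units.val_one, one_mul]

theorem kumK_one (h : Setup p S ι) (ξ : KP p K) : kumK h ξ 1 = 0 :=
  Z1.map_one (kumK_mem_Z1 h ξ)

theorem kumK_mul (h : Setup p S ι) (ξ : KP p K) (a b : ↥(fixG ι)) :
    kumK h ξ (a * b) = kumK h ξ a + kumK h ξ b := by
  rw [(mem_Z1.mp (kumK_mem_Z1 h ξ)).1 a b, KumK_mu_apply h, add_comm]

theorem kumK_pow (h : Setup p S ι) (ξ : KP p K) (a : ↥(fixG ι)) (n : ℕ) :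
    kumK h ξ (a ^ n) = n • kumK h ξ a := by
  induction n with
  | zero => rw [pow_zero, kumK_one, zero_smul]
  | succ n ih => rw [pow_succ, kumK_mul, ih, succ_nsmul]

/-- the action of `U` on `μ_p` is trivial. -/
theorem Setup.mu_apply (h : Setup p S ι) (a : ↥(fixG ι)) (x : ZMod p) :
    rsub (mu p) (fixG ι) a x = x := KumK_mu_apply h a x

theorem Setup.d1_apply (h : Setup p S ι) (y : ↥(fixG ι) → ZMod p) (a b : ↥(fixG ι)) :
    d1 (rsub (mu p) (fixG ι)) y (a, b) = y b - y (a * b) + y a := by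
  rw [Fermat.Agent.S55.d1_apply, KumK_mu_apply h]

theorem Setup.ne (h : Setup p S ι) {l : Nat.Primes} (hl : l ∉ S) : (l : ℕ) ≠ p := by
  intro e
  apply hl
  have : l = pPrime p := Subtype.ext e
  rw [this]
  exact h.hpS

theorem Setup.coprime (h : Setup p S ι) {l : Nat.Primes} (hl : l ∉ S) : Nat.Coprime p l :=
  (Nat.coprime_primes Fact.out l.2).2 (h.ne hl).symm

theorem Setup.isOpen (h : Setup p S ι) : Lall.IsOpen (fixG ι) := LS_le_Lall _ h.hS

end Fermat.Agent.S55.B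

end
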