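import Fermat.Agent.S55.B.RamKer

/-!
# S55/B-N1 : (N1)  `H¹(U, L_S; μ_p) ≅ ker (div mod p outside S_K) ⊂ K^×/p`.

* `kumK_mem_Z1_LS_iff`.  `⟸`: `y = kumK ξ` is a level cocycle for all levels (`kumK_mem_Z1`), `d1 y = 0` is `S`-level
  (`Levels.isLevel₂_const` / `(C2 ..).zero_mem`), `ram y = divp ξ = 0` (`ram_kumK`): `isLevel_of_ram_eq_zero`.
  `⟹`: `ram_eq_zero_of_isLevel`, `ram_kumK`.
* `n1`: `B1 (rsub μ U) = ⊥` since the action is trivial (`Setup.mu_apply`), so `H1 = Z1 ⧸ ⊥-comap ≃ Z1`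
  (`Submodule.quotEquivOfEqBot`);  `Z1 (LS) ≤ Z1 (Lall) = range kumK` (`isLevel₁_LS_le_Lall`, `range_kumK`); `kumK` is injective
  (`kumK_injective`); so `kumK` restricts to a linear equivalence `ker divp ≃ Z1 (LS)` (`LinearEquiv.ofBijective` of
  `LinearMap.restrict`/`codRestrict`).
-/

set_option autoImplicit false

open IsDedekindDomain NumberField

noncomputable section

namespace Fermat.Agent.S55.B

open Places ExtCitation G

variable {p : ℕ} [Fact p.Prime] {S : Finset Nat.Primes} {K : Type} [Field K] [NumberField K]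
  {ι : K →+* Qbar}

theorem kumK_mem_Z1_LS_iff (h : Setup p S ι) (ξ : KP p K) :
    kumK h ξ ∈ Z1 ((LS S).sub (fixG ι)) (rsub (mu p) (fixG ι)) ↔
      ξ ∈ LinearMap.ker (divp p K (SK S ι)) := by
  have hZ := kumK_mem_Z1 h ξ
  rw [LinearMap.mem_ker, ← ram_kumK h ξ]
  constructor
  · intro hz
    exact ram_eq_zero_of_isLevel h hz.2
  · intro hr
    refine ⟨hZ.1, ?_⟩
    apply isLevel_of_ram_eq_zero h hZ.2 _ hr
    have h0 : d1 (rsub (mu p) (fixG ι)) (kumK h ξ) = 0 := hZ.1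
    rw [h0]
    exact (C2 (ZMod p) (ZMod p) ((LS S).sub (fixG ι))).zero_mem

theorem n1 (h : Setup p S ι) :
    Nonempty (↥(LinearMap.ker (divp p K (SK S ι))) ≃ₗ[ZMod p]
      H1 ((LS S).sub (fixG ι)) (rsub (mu p) (fixG ι))) := by
  have hB : (B1 (rsub (mu p) (fixG ι))).comap
      (Z1 ((LS S).sub (fixG ι)) (rsub (mu p) (fixG ι))).subtype = ⊥ := by
    have hB1 : B1 (rsub (mu p) (fixG ι)) = ⊥ := by
      rw [eq_bot_iff]
      rintro _ ⟨x, rfl⟩
      rw [Submodule.mem_bot]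
      funext a
      rw [d0_apply, h.mu_apply, sub_self]
      rfl
    rw [hB1, Submodule.comap_bot, Submodule.ker_subtype]
  let F : ↥(LinearMap.ker (divp p K (SK S ι))) →ₗ[ZMod p]
      ↥(Z1 ((LS S).sub (fixG ι)) (rsub (mu p) (fixG ι))) :=
    LinearMap.codRestrict _ ((kumK h).comp (Submodule.subtype _))
      (fun ξ => (kumK_mem_Z1_LS_iff h ξ.1).mpr ξ.2)
  have hF : Function.Bijective F := by
    constructor
    · intro a b hab
      apply Subtype.ext
      apply kumK_injective h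
      exact congrArg Subtype.val hab
    · rintro ⟨z, hz⟩
      have hz' : z ∈ Z1 (Lall.sub (fixG ι)) (rsub (mu p) (fixG ι)) :=
        ⟨hz.1, isLevel₁_LS_le_Lall hz.2⟩
      rw [← range_kumK h] at hz'
      obtain ⟨ξ, rfl⟩ := hz'
      exact ⟨⟨ξ, (kumK_mem_Z1_LS_iff h ξ).mp hz⟩, rfl⟩
  exact ⟨(LinearEquiv.ofBijective F hF).trans (Submodule.quotEquivOfEqBot _ hB).symm⟩

end Fermat.Agent.S55.B

end
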