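import Fermat.Agent.S55.B.Setup
import Fermat.Agent.S55.G.BridgeVal

/-!
# S55/B-Ord : API for `ordZ v x = ord_v x` (`B/Setup.lean`), link with `v.valuation` and with the absolute
values `nrmg l g` of `Qbar` (`G.IsAt`).  All easy (Mathlib `HeightOneSpectrum.valuationOfNeZero*`,
`WithZero.log/exp`, `HeightOneSpectrum.Support.finite` or `Ideal.finite_factors`,
`HeightOneSpectrum.valuation_exists_uniformizer`).
-/

set_option autoImplicit false

open IsDedekindDomain NumberField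

noncomputable section

namespace Fermat.Agent.S55.B

open Places ExtCitation G

variable {K : Type} [Field K] [NumberField K] (v : Pl K)

theorem valuation_eq_exp_neg_ordZ (x : Kˣ) :
    v.valuation K (x : K) = WithZero.exp (- ordZ v x) := by
  rw [← v.valuationOfNeZero_eq x, ordZ, neg_neg]
  rfl

theorem log_valuation_eq (x : Kˣ) : WithZero.log (v.valuation K (x : K)) = - ordZ v x := by
  rw [valuation_eq_exp_neg_ordZ, WithZero.log_exp]

theorem ordZ_eq_zero_iff (x : Kˣ) : ordZ v x = 0 ↔ v.valuation K (x : K) = 1 := by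
  rw [valuation_eq_exp_neg_ordZ, WithZero.exp_eq_one, neg_eq_zero]

@[simp] theorem ordZ_one : ordZ v (1 : Kˣ) = 0 := by
  simp [ordZ]
theorem ordZ_mul (x y : Kˣ) : ordZ v (x * y) = ordZ v x + ordZ v y := by
  simp only [ordZ, map_mul, toAdd_mul]
  ring
theorem ordZ_inv (x : Kˣ) : ordZ v x⁻¹ = - ordZ v x := by
  simp only [ordZ, map_inv, toAdd_inv]
theorem ordZ_div (x y : Kˣ) : ordZ v (x / y) = ordZ v x - ordZ v y := by
  rw [div_eq_mul_inv, ordZ_mul, ordZ_inv, sub_eq_add_neg]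
theorem ordZ_pow (x : Kˣ) (n : ℕ) : ordZ v (x ^ n) = n * ordZ v x := by
  induction n with
  | zero => simp
  | succ n ih => rw [pow_succ, ordZ_mul, ih]; push_cast; ring
theorem ordZ_zpow (x : Kˣ) (n : ℤ) : ordZ v (x ^ n) = n * ordZ v x := by
  cases n with
  | ofNat n => simpa using ordZ_pow v x n
  | negSucc n =>
    rw [zpow_negSucc, ordZ_inv, ordZ_pow, Int.negSucc_eq]
    push_cast
    ring
theorem ordZ_prod {J : Type*} (s : Finset J) (f : J → Kˣ) :
    ordZ v (∏ j ∈ s, f j) = ∑ j ∈ s, ordZ v (f j) := by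
  classical
  induction s using Finset.induction_on with
  | empty => simp
  | insert a s ha ih => rw [Finset.prod_insert ha, Finset.sum_insert ha, ordZ_mul, ih]

theorem exists_ordZ_eq_one : ∃ π : Kˣ, ordZ v π = 1 := by
  obtain ⟨π, hπ⟩ := v.valuation_exists_uniformizer K
  have hπ0 : π ≠ 0 := by
    rintro rfl
    rw [map_zero] at hπ
    exact WithZero.exp_ne_zero hπ.symm
  refine ⟨Units.mk0 π hπ0, ?_⟩
  have h := valuation_eq_exp_neg_ordZ v (Units.mk0 π hπ0)
  rw [Units.val_mk0, hπ, WithZero.exp_inj] at h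
  omega

theorem finite_ordZ_ne_zero (x : Kˣ) : {v : Pl K | ordZ v x ≠ 0}.Finite := by
  refine ((HeightOneSpectrum.Support.finite (𝓞 K) (x : K)).union
    (HeightOneSpectrum.Support.finite (𝓞 K) ((x⁻¹ : Kˣ) : K))).subset ?_
  intro v hv
  simp only [Set.mem_ofPred_eq] at hv
  simp only [Set.mem_union, HeightOneSpectrum.Support, Set.mem_ofPred_eq,
    valuation_eq_exp_neg_ordZ, ordZ_inv, ← WithZero.exp_zero, WithZero.exp_lt_exp]
  omega

theorem mem_unit_iff (T : Set (Pl K)) (x : Kˣ) : x ∈ T.unit K ↔ ∀ v ∉ T, ordZ v x = 0 := by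
  simp only [ordZ_eq_zero_iff]
  rfl

/-- the absolute value of a place of `Qbar` above `v` is `c ^ ord_v`. -/
theorem IsAt.nrmg_eq {ι : K →+* Qbar} {v : Pl K} {l : Nat.Primes} {g : GQ} (h : IsAt ι v l g) :
    ∃ c : ℝ, 0 < c ∧ c < 1 ∧ ∀ x : Kˣ, nrmg l g (ι (x : K)) = c ^ (ordZ v x) := by
  obtain ⟨c, hc0, hc1, hc⟩ := h
  refine ⟨c, hc0, hc1, fun x => ?_⟩
  rw [hc x x.ne_zero, log_valuation_eq, neg_neg]

theorem IsAt.nrmg_eq_one_iff {ι : K →+* Qbar} {v : Pl K} {l : Nat.Primes} {g : GQ}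
    (h : IsAt ι v l g) (x : Kˣ) : nrmg l g (ι (x : K)) = 1 ↔ ordZ v x = 0 := by
  obtain ⟨c, hc0, hc1, hc⟩ := IsAt.nrmg_eq h
  rw [hc x]
  exact zpow_eq_one_iff_right₀ hc0.le hc1.ne

/-- the places of `K` over a finite set of primes are finite in number
(`v ∣ (l)`: `IsAt` gives `nrmg l g (ι l) < 1`, so `ord_v l ≠ 0`; `finite_ordZ_ne_zero`). -/
theorem finite_setOf_isAt (ι : K →+* Qbar) (T : Finset Nat.Primes) :
    {v : Pl K | ∃ l ∈ T, ∃ g : GQ, IsAt ι v l g}.Finite := by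
  have hl0 : ∀ l : Nat.Primes, ((l : ℕ) : K) ≠ 0 := fun l => by
    exact_mod_cast l.2.ne_zero
  have hfin : (⋃ l ∈ T, {v : Pl K | ordZ v (Units.mk0 ((l : ℕ) : K) (hl0 l)) ≠ 0}).Finite :=
    Set.Finite.biUnion T.finite_toSet fun l _ => finite_ordZ_ne_zero _
  refine hfin.subset ?_
  rintro v ⟨l, hl, g, hat⟩
  simp only [Set.mem_iUnion]
  refine ⟨l, hl, ?_⟩
  intro h0
  have h1 := (IsAt.nrmg_eq_one_iff hat _).2 h0
  have : Fact (l : ℕ).Prime := ⟨l.2⟩
  rw [Units.val_mk0, map_natCast, BridgeVal.nrmg_def, map_natCast, nrm_natCast_self] at h1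
  have h2 : (1 : ℝ) < (l : ℕ) := by exact_mod_cast l.2.one_lt
  have h3 : ((l : ℕ) : ℝ)⁻¹ < 1 := inv_lt_one_of_one_lt₀ h2
  exact h3.ne h1

/-- the prime below a place is unique. -/
theorem IsAt.prime_unique {ι : K →+* Qbar} {v : Pl K} {l l' : Nat.Primes} {g g' : GQ}
    (h : IsAt ι v l g) (h' : IsAt ι v l' g') : l = l' := (IsAt.samePlace ι h h').1

end Fermat.Agent.S55.B

end
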