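import Fermat.Agent.S55.B.Tau

/-!
# S55/B-Ram : the ramification map `ram : (U → 𝔽_p) → ∏_{v ∉ S_K} 𝔽_p`, `y ↦ (y(τ_v) - y(1))_v`.

* `ram_kumK`: `tau_spec`, `kumK_one`.
* `ram_mem_DivFin`: `y` is right invariant under an open normal `N` (`isLevel₁_sub_iff`); `exists_finset_Ig_le`:
  `Ig l g ≤ N` for `l ∉ T`; so `y (τ_v) = y (1 * τ_v) = y 1` unless `v` lies over a prime of `T`
  (`tau_mem`), and there are finitely many such `v` (`finite_setOf_isAt`; the support is a subset of the
  preimage of that finite set under the injective `Subtype.val`).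
* `ram_eq_zero_of_isLevel`: an `S`-level `y` is right invariant under an `S`-open `N`, which contains all
  `Ig l g`, `l ∉ S` (`Ig_le_of_isOpen`).
-/

set_option autoImplicit false

open IsDedekindDomain NumberField

noncomputable section

namespace Fermat.Agent.S55.B

open Places ExtCitation G

variable {p : ℕ} [Fact p.Prime] {S : Finset Nat.Primes} {K : Type} [Field K] [NumberField K]
  {ι : K →+* Qbar}

/-- a chosen element of an inertia group above `v` on which `kumK ξ` takes the value `ord_v ξ`. -/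
def tau (h : Setup p S ι) (v : {v : Pl K // v ∉ SK S ι}) : ↥(fixG ι) :=
  Classical.choose (exists_tauS h v)

theorem tau_mem (h : Setup p S ι) (v : {v : Pl K // v ∉ SK S ι}) :
    ∃ (l : Nat.Primes) (g : GQ), l ∉ S ∧ IsAt ι v.1 l g ∧ (tau h v : GQ) ∈ Ig l g :=
  (Classical.choose_spec (exists_tauS h v)).1

theorem tau_spec (h : Setup p S ι) (v : {v : Pl K // v ∉ SK S ι}) (ξ : KP p K) :
    kumK h ξ (tau h v) = ordp p K v.1 ξ :=
  (Classical.choose_spec (exists_tauS h v)).2 ξ

/-- the ramification map. -/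
def ram (h : Setup p S ι) :
    (↥(fixG ι) → ZMod p) →ₗ[ZMod p] ({v : Pl K // v ∉ SK S ι} → ZMod p) where
  toFun y v := y (tau h v) - y 1
  map_add' y y' := by ext v; simp only [Pi.add_apply]; ring
  map_smul' c y := by ext v; simp only [Pi.smul_apply, smul_eq_mul, RingHom.id_apply]; ring

@[simp] theorem ram_apply (h : Setup p S ι) (y : ↥(fixG ι) → ZMod p)
    (v : {v : Pl K // v ∉ SK S ι}) : ram h y v = y (tau h v) - y 1 := rfl

theorem ram_kumK (h : Setup p S ι) (ξ : KP p K) : ram h (kumK h ξ) = divp p K (SK S ι) ξ := by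
  ext v
  rw [ram_apply, tau_spec, kumK_one, sub_zero, divp_apply]

theorem ram_mem_DivFin (h : Setup p S ι) {y : ↥(fixG ι) → ZMod p}
    (hy : (Lall.sub (fixG ι)).IsLevel₁ y) : ram h y ∈ DivFin p K (SK S ι) := by
  obtain ⟨N, hN, -, hinv⟩ := (isLevel₁_sub_iff Lall (fixG ι) y).1 hy
  obtain ⟨T, hT⟩ := exists_finset_Ig_le hN
  have hfin := finite_setOf_isAt ι T
  show (Function.support (ram h y)).Finite
  refine (hfin.preimage (Subtype.val_injective.injOn)).subset ?_
  intro v hv
  obtain ⟨l, g, -, hat, hmem⟩ := tau_mem h v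
  by_cases hl : l ∈ T
  · exact ⟨l, hl, g, hat⟩
  · exfalso
    apply hv
    have h1 := hinv 1 (tau h v) (hT l hl g hmem)
    rw [one_mul] at h1
    rw [ram_apply, h1, sub_self]

theorem ram_eq_zero_of_isLevel (h : Setup p S ι) {y : ↥(fixG ι) → ZMod p}
    (hy : ((LS S).sub (fixG ι)).IsLevel₁ y) : ram h y = 0 := by
  obtain ⟨N, hN, -, hinv⟩ := (isLevel₁_sub_iff (LS S) (fixG ι) y).1 hy
  ext v
  obtain ⟨l, g, hl, -, hmem⟩ := tau_mem h v
  have h1 := hinv 1 (tau h v) (Ig_le_of_isOpen hN hl g hmem)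
  rw [one_mul] at h1
  rw [ram_apply, h1, sub_self, Pi.zero_apply]

end Fermat.Agent.S55.B

end
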