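import Fermat.Agent.S55.B.Tau
import Fermat.Agent.S55.B.UR

/-!
# S55/B-RamLoc : local analysis of a cochain `y : U → 𝔽_p` (all levels) whose coboundary is `S`-level.
On every inertia group `Ig l g`, `l ∉ S`, `y - y(1)` coincides with a GLOBAL Kummer cochain `kumK ξ`.

PROOF.  `U = fixG ι`, `D = Dg l g ⊓ U`, `Ig l g ≤ D` (`Ig_le_Dg`, `Ig_le_of_isOpen`).
`y₀ = y - y 1` (constant); `d1 y₀ = d1 y - (y 1)` (`Setup.d1_apply`) is still `S`-level, `d1 y₀ (1,1) = 0`, and it is a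
cocycle (`d2_d1`): `z := d1 y₀ ∈ Z2 ((LS S).sub U) μ`.  `UR` gives `N'`, `y'` on `D` with `z|_D = d1 y'`,
`y'` right `N'`-invariant, `Ig l g ≤ N'`, `y' 1 = 0`.  `w := y₀|_D - y'` is a level function on `D`
(`isLevel₁_comp_inclusion`, `isLevel₁_of_isOpenIn`) with `w (a b) = w a + w b`, so `w ∈ Z1 (Lall.sub D) μ` (`mem_Z1`; the
action is trivial on `D ≤ U ≤ ker ω`).  `exists_kum_eq`: `w = kum p γ` on `D`, `c := γ^p ∈ Fix D`.
`G.exists_near` (`ε = 1`): `x ∈ K^×`, `nrmg l g (c / ι x - 1) < 1`, so `nrmg l g (c / ι x) = 1`.  `β^p = ι x` (`exists_root`).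
`(γ/β)^p = c / ι x` is a unit fixed by `τ ∈ Ig l g`; `map_root_of_mem_Ig` (with `c := 1`): `τ (γ/β) = γ/β`, so
`kum p γ τ = kum p β τ` (`kum_div`, `kum_eq_zero_iff`) `= kumK h (cls p x) τ`.  Finally `y' τ = y' (1 * τ) = y' 1 = 0`.
-/

set_option autoImplicit false

open IsDedekindDomain NumberField

noncomputable section

namespace Fermat.Agent.S55.B

open Places ExtCitation G

variable {p : ℕ} [Fact p.Prime] {S : Finset Nat.Primes} {K : Type} [Field K] [NumberField K]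
  {ι : K →+* Qbar}

/-- `|-x| = |x|`. -/
theorem RamLoc_nrmg_neg (l : Nat.Primes) (g : GQ) (x : Qbar) : nrmg l g (-x) = nrmg l g x := by
  have h1 : nrmg l g (-1) * nrmg l g (-1) = 1 := by
    rw [← nrmg_mul]; simp [nrmg_one]
  have h0 := nrmg_nonneg l g (-1)
  have h2 : nrmg l g (-1) = 1 := by nlinarith
  have e : -x = (-1) * x := by ring
  rw [e, nrmg_mul, h2, one_mul]

/-- `|u - 1| < 1 ⟹ |u| = 1`. -/
theorem RamLoc_nrmg_eq_one (l : Nat.Primes) (g : GQ) {u : Qbar} (hu : nrmg l g (u - 1) < 1) :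
    nrmg l g u = 1 := by
  apply le_antisymm
  · have e : u = (u - 1) + 1 := by ring
    rw [e]
    refine (nrmg_add_le_max l g _ _).trans (max_le hu.le ?_)
    rw [nrmg_one]
  · by_contra hlt
    rw [not_le] at hlt
    have e : (1 : Qbar) = u + -(u - 1) := by ring
    have h1 := nrmg_add_le_max l g u (-(u - 1))
    rw [← e, nrmg_one, RamLoc_nrmg_neg] at h1
    exact absurd h1 (not_le.mpr (max_lt hlt hu))

theorem exists_kumK_eq_on_Ig (h : Setup p S ι) {y : ↥(fixG ι) → ZMod p}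
    (hy : (Lall.sub (fixG ι)).IsLevel₁ y)
    (hdy : ((LS S).sub (fixG ι)).IsLevel₂ (d1 (rsub (mu p) (fixG ι)) y))
    {l : Nat.Primes} (hl : l ∉ S) (g : GQ) :
    ∃ ξ : KP p K, ∀ τ : ↥(fixG ι), (τ : GQ) ∈ Ig l g → y τ - y 1 = kumK h ξ τ := by
  -- the normalised cochain
  let y₀ : ↥(fixG ι) → ZMod p := fun a => y a - y 1
  have hy₀ : (Lall.sub (fixG ι)).IsLevel₁ y₀ := by
    obtain ⟨V, hV, hVy⟩ := hy
    exact ⟨V, hV, fun a s hs => by simp only [y₀, hVy a s hs]⟩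
  have hd : ∀ a b, d1 (rsub (mu p) (fixG ι)) y₀ (a, b)
      = d1 (rsub (mu p) (fixG ι)) y (a, b) - y 1 := by
    intro a b
    rw [h.d1_apply, h.d1_apply]
    simp only [y₀]
    ring
  have hlev : ((LS S).sub (fixG ι)).IsLevel₂ (d1 (rsub (mu p) (fixG ι)) y₀) := by
    obtain ⟨V, hV, hVy⟩ := hdy
    exact ⟨V, hV, fun a b s hs s' hs' => by rw [hd, hd, hVy a b s hs s' hs']⟩
  have hz : d1 (rsub (mu p) (fixG ι)) y₀ ∈ Z2 ((LS S).sub (fixG ι)) (rsub (mu p) (fixG ι)) :=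
    ⟨LinearMap.mem_ker.mpr (d2_d1 _ y₀), hlev⟩
  have hz1 : d1 (rsub (mu p) (fixG ι)) y₀ (1, 1) = 0 := by
    rw [h.d1_apply]
    simp [y₀]
  obtain ⟨N', y', hN', hI, hy'inv, hy'1, hzy⟩ := UR p hl g h.hS h.hω _ hz hz1
  -- the local homomorphism
  let w : ↥(Dg l g ⊓ fixG ι) → ZMod p :=
    fun a => y₀ (Subgroup.inclusion inf_le_right a) - y' a
  have hw_lev : (Lall.sub (Dg l g ⊓ fixG ι)).IsLevel₁ w := by
    obtain ⟨V, hV, hVy⟩ := isLevel₁_comp_inclusion Lall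
      (inf_le_right : Dg l g ⊓ fixG ι ≤ fixG ι) hy₀
    obtain ⟨V', hV', hVy'⟩ := isLevel₁_of_isOpenIn hN' hy'inv
    exact ⟨V ⊓ V', (Lall.sub _).isOpen_inf hV hV', fun a s hs => by
      simp only [w, hVy a s hs.1, hVy' a s hs.2]⟩
  have hw_add : ∀ a b, w (a * b) = w a + w b := by
    intro a b
    have h1 := hzy a b
    rw [h.d1_apply] at h1
    simp only [w, map_mul]
    linear_combination -h1
  have hwZ : w ∈ Z1 (Lall.sub (Dg l g ⊓ fixG ι)) (rsub (mu p) (Dg l g ⊓ fixG ι)) := by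
    refine mem_Z1.mpr ⟨fun a b => ?_, hw_lev⟩
    have h1 : rsub (mu p) (Dg l g ⊓ fixG ι) a (w b) = w b :=
      mu_apply_of_mem_ker p (h.hω a.2.2) _
    rw [hw_add, h1, add_comm]
  obtain ⟨γ, hγ, hwγ⟩ := exists_kum_eq p hwZ
  obtain ⟨x, hx0, hx⟩ := exists_near l g ι hγ (pow_ne_zero p γ.ne_zero) one_pos
  have hnorm : nrmg l g ((γ : Qbar) ^ p / ι x) = 1 := RamLoc_nrmg_eq_one l g hx
  obtain ⟨β, hβ⟩ := exists_root p (toQ ι (Units.mk0 x hx0))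
  have hβ' : (β : Qbar) ^ p = ι x := by
    rw [← Units.val_pow_eq_pow_val, hβ, coe_toQ, Units.val_mk0]
  refine ⟨cls p (Units.mk0 x hx0), fun τ hτ => ?_⟩
  have hτD : (τ : GQ) ∈ Dg l g ⊓ fixG ι := ⟨Ig_le_Dg l g hτ, τ.2⟩
  have hfγ : (τ : GQ) ((γ : Qbar) ^ p) = (γ : Qbar) ^ p := mem_Fix_iff.1 hγ _ hτD
  have hfβ : (τ : GQ) ((β : Qbar) ^ p) = (β : Qbar) ^ p := by
    rw [hβ']; exact τ.2 x
  have hroot : (τ : GQ) (((γ / β : Qbarˣ) : Qbar)) = ((γ / β : Qbarˣ) : Qbar) := by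
    refine map_root_of_mem_Ig (n := p) (h.coprime hl) (u := (γ : Qbar) ^ p / ι x) (c := 1)
      one_ne_zero ?_ ?_ hτ ?_ (map_one _)
    · rw [hnorm, nrmg_one, one_pow]
    · rw [Units.val_div_eq_div_val, div_pow, hβ']
    · rw [map_div₀, hfγ, τ.2 x]
  have hk : kum p γ τ = kum p β τ := by
    have h1 : kum p (γ / β) τ = 0 :=
      (kum_eq_zero_iff p (by rw [map_pow, hroot])).mpr hroot
    rw [kum_div p hfγ hfβ, sub_eq_zero] at h1
    exact h1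
  have hy'τ : y' ⟨τ, hτD⟩ = 0 := by
    have h1 := hy'inv 1 ⟨τ, hτD⟩ (hI hτ)
    rw [one_mul] at h1
    rw [h1, hy'1]
  have hwτ : w ⟨τ, hτD⟩ = y τ - y 1 := by
    have e : Subgroup.inclusion (inf_le_right : Dg l g ⊓ fixG ι ≤ fixG ι) ⟨τ, hτD⟩ = τ := rfl
    simp only [w, y₀, e, hy'τ, sub_zero]
  rw [kumK_cls h _ β hβ τ, ← hk, ← hwτ]
  exact hwγ ⟨τ, hτD⟩

end Fermat.Agent.S55.B

end
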