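import Fermat.Agent.S55.B.Ram
import Fermat.Agent.S55.B.RamLoc

/-!
# S55/B-RamKer : the kernel of the ramification map consists of `S`-level cochains.

`y : U → 𝔽_p` level (all levels), `d1 y` `S`-level, `ram y = 0`  ⟹  `y` is `S`-level.

PROOF.  `ỹ = y - y 1`.
(a) `d1 y` is right invariant under an `S`-open normal `N₀` (`isLevel₂_sub_iff`); put `N = N₀ ⊓ U` (`S`-open).
    With `Setup.d1_apply`: for `n ∈ N`, `a ∈ U`:  `d1 y (a, n) = d1 y (a, 1)` gives `ỹ (a n) = ỹ a + ỹ n`;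
    `d1 y (n, a) = d1 y (1, a)` gives `ỹ (n a) = ỹ n + ỹ a`.  Hence `ỹ (u n u⁻¹) = ỹ n` for `u ∈ U` (`N` is normalised by `U`).
(b) Let `l ∉ S`, `g : GQ`.  Claim `ỹ = 0` on `Ig l g` (`≤ N` by `Ig_le_of_isOpen`).  Let `v ∉ S_K` be the place under `(l,g)`
    (`exists_not_mem_SK_isAt`) and `(l₀,g₀)`, `τ_v ∈ Ig l₀ g₀` as in `tau_mem`.  `exists_kumK_eq_on_Ig` at `(l₀,g₀)`: `ỹ = kumK ξ` on
    `Ig l₀ g₀`.  `0 = ram y v = ỹ τ_v = kumK ξ τ_v = ordp v ξ` (`tau_spec`), so `kumK ξ = 0` on `Ig l₀ g₀`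
    (`kumK_eq_zero_of_ordp_eq_zero`): `ỹ = 0` on `Ig l₀ g₀`.  `IsAt.samePlace` + `exists_conj_Ig_of_samePlace`:
    `Ig l g = u (Ig l₀ g₀) u⁻¹`, `u ∈ U`; conclude by (a).
(c) `y` is right invariant under an open normal `M` (`isLevel₁_sub_iff`).  `N₁ := {n ∈ N | ỹ n = 0}` is a subgroup of `GQ` by (a),
    contains `N ⊓ M` (so it is `Lall`-open) and all `Ig l g`, `l ∉ S` (b): it is `S`-open (`isOpen_LS_of_Ig_le`).
    `y (a n) = y a + ỹ n = y a` for `n ∈ N₁`: `y` is `S`-level (`⟨N₁.subgroupOf U, ⟨N₁, _, le_rfl⟩, _⟩`).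
-/

set_option autoImplicit false

open IsDedekindDomain NumberField

noncomputable section

namespace Fermat.Agent.S55.B

open Places ExtCitation G

variable {p : ℕ} [Fact p.Prime] {S : Finset Nat.Primes} {K : Type} [Field K] [NumberField K]
  {ι : K →+* Qbar}

theorem isLevel_of_ram_eq_zero (h : Setup p S ι) {y : ↥(fixG ι) → ZMod p}
    (hy : (Lall.sub (fixG ι)).IsLevel₁ y)
    (hdy : ((LS S).sub (fixG ι)).IsLevel₂ (d1 (rsub (mu p) (fixG ι)) y))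
    (hr : ram h y = 0) : ((LS S).sub (fixG ι)).IsLevel₁ y := by
  obtain ⟨N₀, hN₀, hN₀n, hd⟩ := (isLevel₂_sub_iff _ _ _).1 hdy
  obtain ⟨M, hM, -, hyM⟩ := (isLevel₁_sub_iff _ _ _).1 hy
  -- (a)
  have a1 : ∀ a n : ↥(fixG ι), (n : GQ) ∈ N₀ → y (a * n) = y a + (y n - y 1) := by
    intro a n hn
    have e := hd a 1 1 n N₀.one_mem hn
    rw [h.d1_apply, h.d1_apply, mul_one, one_mul] at e
    linear_combination -e
  have a2 : ∀ a n : ↥(fixG ι), (n : GQ) ∈ N₀ → y (n * a) = y a + (y n - y 1) := by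
    intro a n hn
    have e := hd 1 a n 1 hn N₀.one_mem
    rw [h.d1_apply, h.d1_apply, mul_one, one_mul, one_mul] at e
    linear_combination -e
  have a3 : ∀ u n : ↥(fixG ι), (n : GQ) ∈ N₀ → y (u * n * u⁻¹) = y n := by
    intro u n hn
    have hc : ((u * n * u⁻¹ : ↥(fixG ι)) : GQ) ∈ N₀ := hN₀n.conj_mem _ hn _
    have e1 := a2 u _ hc
    have e2 := a1 u n hn
    rw [inv_mul_cancel_right] at e1
    linear_combination e2 - e1
  -- (b)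
  have b : ∀ (l : Nat.Primes), l ∉ S → ∀ (g : GQ) (τ : ↥(fixG ι)), (τ : GQ) ∈ Ig l g →
      y τ - y 1 = 0 := by
    intro l hl g τ hτ
    obtain ⟨v, hv, hat⟩ := exists_not_mem_SK_isAt ι hl g
    obtain ⟨l₀, g₀, hl₀, hat₀, hτ₀⟩ := tau_mem h ⟨v, hv⟩
    obtain ⟨ξ, hξ⟩ := exists_kumK_eq_on_Ig h hy hdy hl₀ g₀
    have h0 : ordp p K v ξ = 0 := by
      have e := congrFun hr ⟨v, hv⟩
      rw [ram_apply, hξ _ hτ₀, tau_spec] at e
      exact e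
    obtain ⟨u, hu, hconj⟩ := exists_conj_Ig_of_samePlace (IsAt.samePlace ι hat₀ hat)
    let u' : ↥(fixG ι) := ⟨u, hu⟩
    have hτ' : ((u'⁻¹ * τ * u' : ↥(fixG ι)) : GQ) ∈ Ig l₀ g₀ := by
      rw [hconj]
      have e : u * ((u'⁻¹ * τ * u' : ↥(fixG ι)) : GQ) * u⁻¹ = τ := by
        change u * (u⁻¹ * (τ : GQ) * u) * u⁻¹ = τ
        group
      rw [e]
      exact hτ
    have e1 := a3 u' _ (Ig_le_of_isOpen hN₀ hl₀ g₀ hτ')
    have e2 : u' * (u'⁻¹ * τ * u') * u'⁻¹ = τ := by group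
    rw [e2] at e1
    rw [e1, hξ _ hτ', kumK_eq_zero_of_ordp_eq_zero h hl₀ hat₀ h0 _ hτ']
  -- (c)
  let N₁ : Subgroup GQ :=
    { carrier := {x | ∃ hx : x ∈ fixG ι, x ∈ N₀ ∧ y ⟨x, hx⟩ - y 1 = 0}
      one_mem' := ⟨(fixG ι).one_mem, N₀.one_mem, sub_self _⟩
      mul_mem' := by
        rintro a b ⟨ha, ha0, hay⟩ ⟨hb, hb0, hby⟩
        refine ⟨(fixG ι).mul_mem ha hb, N₀.mul_mem ha0 hb0, ?_⟩
        have e := a1 ⟨a, ha⟩ ⟨b, hb⟩ hb0
        change y ⟨a * b, _⟩ = _ at e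
        rw [e, hby, add_zero, hay]
      inv_mem' := by
        rintro a ⟨ha, ha0, hay⟩
        refine ⟨(fixG ι).inv_mem ha, N₀.inv_mem ha0, ?_⟩
        have e := a1 (⟨a, ha⟩⁻¹) ⟨a, ha⟩ ha0
        rw [inv_mul_cancel, hay, add_zero] at e
        change y 1 = y ⟨a⁻¹, _⟩ at e
        rw [← e, sub_self] }
  have hN₁all : Lall.IsOpen N₁ := by
    refine Lall.isOpen_mono (Lall.isOpen_inf (Lall.isOpen_inf (LS_le_Lall _ hN₀) h.isOpen) hM) ?_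
    rintro x ⟨⟨hx0, hxU⟩, hxM⟩
    refine ⟨hxU, hx0, ?_⟩
    have e := hyM 1 ⟨x, hxU⟩ hxM
    rw [one_mul] at e
    rw [e, sub_self]
  have hN₁ : (LS S).IsOpen N₁ := by
    refine isOpen_LS_of_Ig_le hN₁all fun q hq g x hx => ?_
    exact ⟨Ig_le_of_isOpen h.hS hq g hx, Ig_le_of_isOpen hN₀ hq g hx, b q hq g _ hx⟩
  refine ⟨N₁.subgroupOf (fixG ι), ⟨N₁, hN₁, le_rfl⟩, fun a n hn => ?_⟩
  obtain ⟨hnU, hn0, hny⟩ := (hn : (n : GQ) ∈ N₁)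
  have hny' : y n - y 1 = 0 := hny
  rw [a1 a n hn0, hny', add_zero]

end Fermat.Agent.S55.B

end
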