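import Fermat.Agent.S55.B.Defs

/-!
# S55 (B): the standing hypotheses of (N1), (N2)  (sorry-free, FROZEN)
-/

set_option autoImplicit false

open IsDedekindDomain NumberField

noncomputable section

namespace Fermat.Agent.S55.B

open Places ExtCitation G

/-- `K = Fix U` (`U = fixG ι`) is unramified outside `S ∋ p` and contains `μ_p`. -/
structure Setup (p : ℕ) [Fact p.Prime] (S : Finset Nat.Primes) {K : Type} [Field K]
    (ι : K →+* Qbar) : Prop where
  hpS : pPrime p ∈ S
  hS : (LS S).IsOpen (fixG ι)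
  hω : fixG ι ≤ (cycloChar p).ker

/-- `ord_v x ∈ ℤ`. -/
def ordZ {K : Type} [Field K] [NumberField K] (v : Pl K) (x : Kˣ) : ℤ :=
  - Multiplicative.toAdd (v.valuationOfNeZero x)

theorem ordp_cls' (p : ℕ) [Fact p.Prime] {K : Type} [Field K] [NumberField K] (v : Pl K)
    (x : Kˣ) : ordp p K v (cls p x) = (ordZ v x : ZMod p) := rfl

end Fermat.Agent.S55.B

end
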