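import Fermat.Agent.S55.B.KumK
import Fermat.Agent.S55.B.Ord
import Fermat.Agent.S55.B.BasicOpen

/-!
# S55/B-Tau : ramification of Kummer cochains at a place `v` of `K` outside `S`.
`(l,g)` a place of `Qbar` above `v` (`IsAt ι v l g`), `l ∉ S` (so `l ≠ p`, `Ig l g ≤ U = fixG ι`).

* `kumK_eq_zero_of_ordp_eq_zero` (P10): `ξ = cls x`, `ord_v x = p k`.  Take `π` with `ord_v π = 1`
  (`exists_ordZ_eq_one`), `c = ι (π^k)`: `nrmg l g (ι x) = nrmg l g c ^ p` (`IsAt.nrmg_eq`), `τ ∈ Ig l g ≤ U` fixes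
  `ι x` and `c`; `map_root_of_mem_Ig` (`n = p`, coprime to `l`): `τ β = β`; `kum_eq_zero_iff`, `kumK_cls`.
* `exists_tau` (P14b): `π` with `ord_v π = 1`, `ϖ^p = ι π`.  If every `τ ∈ Ig l g` fixes `ϖ`, then
  `exists_nrmg_pow_of_root_fixed` gives `y ∈ Fix (Dg l g ⊓ U)` with `nrmg (ι π) = nrmg y ^ p`; `G.exists_near`
  (`ε = 1`) gives `y' ∈ K^×` with `nrmg (y / ι y' - 1) < 1`, so `nrmg y = nrmg (ι y') = c ^ ord_v y'`
  (ultrametric: `G.nrmg_add_le_max`); hence `c ^ 1 = c ^ (p ord_v y')`, `1 = p ord_v y'`: absurd.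
  So there is `τ₀ ∈ Ig l g` with `a = kumK (cls π) τ₀ ≠ 0`; `τ = τ₀ ^ n`, `n a = 1` in `𝔽_p` (`kumK_pow`).
  For `ξ = cls x`, `k = ord_v x`: `ξ - k • cls π` has `ordp = 0`, so `kumK` of it vanishes at `τ` (first lemma).
-/

set_option autoImplicit false

open IsDedekindDomain NumberField

noncomputable section

namespace Fermat.Agent.S55.B

open Places ExtCitation G

variable {p : ℕ} [Fact p.Prime] {S : Finset Nat.Primes} {K : Type} [Field K] [NumberField K]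
  {ι : K →+* Qbar}

theorem kumK_eq_zero_of_ordp_eq_zero (h : Setup p S ι) {v : Pl K} {l : Nat.Primes} {g : GQ}
    (hl : l ∉ S) (hv : IsAt ι v l g) {ξ : KP p K} (hξ : ordp p K v ξ = 0) (τ : ↥(fixG ι))
    (hτ : (τ : GQ) ∈ Ig l g) : kumK h ξ τ = 0 := by
  obtain ⟨x, rfl⟩ := cls_surjective p ξ
  rw [ordp_cls', ZMod.intCast_zmod_eq_zero_iff_dvd] at hξ
  obtain ⟨k, hk⟩ := hξ
  obtain ⟨π, hπ⟩ := exists_ordZ_eq_one v
  obtain ⟨β, hβ⟩ := exists_root p (toQ ι x)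
  have hcoe : (β : Qbar) ^ p = ι (x : K) := by
    rw [← Units.val_pow_eq_pow_val, hβ, coe_toQ]
  obtain ⟨c0, hc0, hc1, hc⟩ := IsAt.nrmg_eq hv
  have hu : nrmg l g (ι (x : K)) = nrmg l g (ι ((π ^ k : Kˣ) : K)) ^ p := by
    rw [hc, hc, hk, ordZ_zpow, hπ, mul_one, ← zpow_natCast, ← zpow_mul, mul_comm]
  have hfix : (τ : GQ) (β : Qbar) = β :=
    map_root_of_mem_Ig (h.coprime hl) ((map_ne_zero ι).2 (Units.ne_zero _)) hu hcoe hτ (τ.2 _) (τ.2 _)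
  rw [kumK_cls h x β hβ τ]
  exact (kum_eq_zero_iff p (by rw [hcoe]; exact τ.2 _)).2 hfix

namespace Tau

/-- some element of the inertia group moves a `p`-th root of a uniformizer (P14b). -/
theorem exists_moves (h : Setup p S ι) {v : Pl K} {l : Nat.Primes} {g : GQ}
    (hv : IsAt ι v l g) {π : Kˣ} (hπ : ordZ v π = 1) {ϖ : Qbarˣ}
    (hcoe : (ϖ : Qbar) ^ p = ι (π : K)) : ∃ τ₀ ∈ Ig l g, τ₀ (ϖ : Qbar) ≠ ϖ := by
  by_contra hcon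
  push Not at hcon
  have : Fact (l : ℕ).Prime := ⟨l.2⟩
  obtain ⟨c0, hc0, hc1, hc⟩ := IsAt.nrmg_eq hv
  have hb : ι (π : K) ∈ Places.Fix (Dg l g ⊓ fixG ι) := by
    rw [IntermediateField.mem_fixedField_iff]
    intro t ht
    exact ht.2 _
  obtain ⟨y, hy, hyn⟩ := exists_nrmg_pow_of_root_fixed h.isOpen hb hcoe
    (fun τ hτ => hcon τ hτ.1)
  rw [hc, hπ, zpow_one] at hyn
  have hp0 : p ≠ 0 := (Fact.out : p.Prime).ne_zero
  have hy0 : y ≠ 0 := by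
    rintro rfl
    rw [(nrmg_eq_zero_iff l g).2 rfl, zero_pow hp0] at hyn
    exact hc0.ne' hyn
  obtain ⟨y', hy'0, hy'⟩ := exists_near l g ι hy hy0 one_pos
  have h1 : nrmg l g (y / ι y') = 1 := by
    rw [G.nrmg_def] at hy' ⊢
    rw [map_sub, map_one] at hy'
    exact nrm_eq_one_of_sub_one_lt hy'
  have hιy' : ι y' ≠ 0 := by simpa using hy'0
  have h2 : nrmg l g y = c0 ^ ordZ v (Units.mk0 y' hy'0) := by
    rw [← hc, Units.val_mk0]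
    have : y = y / ι y' * ι y' := by field_simp
    conv_lhs => rw [this]
    rw [nrmg_mul, h1, one_mul]
  rw [h2, ← zpow_natCast, ← zpow_mul] at hyn
  have h3 : (1 : ℤ) = ordZ v (Units.mk0 y' hy'0) * (p : ℤ) :=
    zpow_right_injective₀ hc0 hc1.ne (by simpa using hyn)
  have h4 : (p : ℤ) ∣ ((1 : ℕ) : ℤ) := ⟨_, by rw [Nat.cast_one, h3, mul_comm]⟩
  have h5 : p ∣ 1 := by exact_mod_cast h4
  exact (Fact.out : p.Prime).one_lt.ne' (Nat.dvd_one.1 h5)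

end Tau

theorem exists_tau (h : Setup p S ι) {v : Pl K} {l : Nat.Primes} {g : GQ} (hl : l ∉ S)
    (hv : IsAt ι v l g) :
    ∃ τ : ↥(fixG ι), (τ : GQ) ∈ Ig l g ∧ ∀ ξ : KP p K, kumK h ξ τ = ordp p K v ξ := by
  obtain ⟨π, hπ⟩ := exists_ordZ_eq_one v
  obtain ⟨ϖ, hϖ⟩ := exists_root p (toQ ι π)
  have hcoe : (ϖ : Qbar) ^ p = ι (π : K) := by
    rw [← Units.val_pow_eq_pow_val, hϖ, coe_toQ]
  have hIU : Ig l g ≤ fixG ι := Ig_le_of_isOpen h.hS hl g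
  obtain ⟨τ₀, hτ₀, hne⟩ := Tau.exists_moves h hv hπ hcoe
  obtain ⟨a, ha⟩ : ∃ a, a = kumK h (cls p π) ⟨τ₀, hIU hτ₀⟩ := ⟨_, rfl⟩
  have ha0 : a ≠ 0 := by
    rw [ha, kumK_cls h π ϖ hϖ]
    intro h0
    exact hne ((kum_eq_zero_iff p (by rw [hcoe]; exact hIU hτ₀ _)).1 h0)
  refine ⟨⟨τ₀, hIU hτ₀⟩ ^ (a⁻¹).val, ?_, fun ξ => ?_⟩
  · rw [Subgroup.coe_pow]
    exact pow_mem hτ₀ _
  have h1 : kumK h (cls p π) (⟨τ₀, hIU hτ₀⟩ ^ (a⁻¹).val) = 1 := by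
    rw [kumK_pow, ← ha, nsmul_eq_mul, ZMod.natCast_zmod_val, inv_mul_cancel₀ ha0]
  obtain ⟨x, rfl⟩ := cls_surjective p ξ
  have h2 : ordp p K v (cls p x - (ordZ v x : ZMod p) • cls p π) = 0 := by
    rw [map_sub, map_smul, ordp_cls', ordp_cls', hπ]
    simp
  have h3 := kumK_eq_zero_of_ordp_eq_zero h hl hv h2 (⟨τ₀, hIU hτ₀⟩ ^ (a⁻¹).val)
    (by rw [Subgroup.coe_pow]; exact pow_mem hτ₀ _)
  rw [map_sub, map_smul, Pi.sub_apply, Pi.smul_apply, h1, smul_eq_mul, mul_one, sub_eq_zero] at h3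
  rw [h3, ordp_cls']

/-- a place of `K` outside `S_K` lies under a place `(l,g)` with `l ∉ S` (`G.exists_isAt`). -/
theorem exists_isAt_of_not_mem_SK (ι : K →+* Qbar) {v : Pl K} (hv : v ∉ SK S ι) :
    ∃ (l : Nat.Primes) (g : GQ), l ∉ S ∧ IsAt ι v l g := by
  obtain ⟨l, g, hat⟩ := exists_isAt ι v
  exact ⟨l, g, fun hl => hv ⟨l, hl, g, hat⟩, hat⟩

/-- a place `(l,g)`, `l ∉ S`, lies over a place of `K` outside `S_K`
(`G.exists_isAt'`, `IsAt.prime_unique`). -/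
theorem exists_not_mem_SK_isAt (ι : K →+* Qbar) {l : Nat.Primes} (hl : l ∉ S) (g : GQ) :
    ∃ v : Pl K, v ∉ SK S ι ∧ IsAt ι v l g := by
  obtain ⟨v, hv⟩ := exists_isAt' ι l g
  refine ⟨v, ?_, hv⟩
  rintro ⟨q, hq, g', h'⟩
  exact hl (IsAt.prime_unique hv h' ▸ hq)

theorem exists_tauS (h : Setup p S ι) (v : {v : Pl K // v ∉ SK S ι}) :
    ∃ τ : ↥(fixG ι), (∃ (l : Nat.Primes) (g : GQ), l ∉ S ∧ IsAt ι v.1 l g ∧ (τ : GQ) ∈ Ig l g) ∧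
      ∀ ξ : KP p K, kumK h ξ τ = ordp p K v.1 ξ := by
  obtain ⟨l, g, hl, hat⟩ := exists_isAt_of_not_mem_SK ι v.2
  obtain ⟨τ, hτ, hτ'⟩ := exists_tau h hl hat
  exact ⟨τ, ⟨l, g, hl, hat, hτ⟩, hτ'⟩

end Fermat.Agent.S55.B

end
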